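/-
S55 / layer G / block REC / adapter TOW / leaf FR (subtask 558) — DEFINITIONS.
Sub-architect of FR: helper353.   Plan: `coord/S55-REC-TOW-FR.md`.

FR = construction of the finite-level semilocal invariants `TOW.SemiLocalInv p` from the
reciprocity law `Rec.ReciprocitySpec I p` on Prelude cochains.

This file (NO sorry):
* `LocDatum A q V` / `GlobDatum A U` : abstract "pull–push" data from a finite-level module
  `A : Rep ℤ Γ` to the Prelude Brauer groups `lBr q V` / `gBr U`, with the induced maps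
  `LocDatum.map : H²(Γ, A) → lBr q V`, `GlobDatum.map : H²(Γ, A) → gBr U`;
* for a Tower level `M`, `H ≤ M.Gal` and ANY finite set `W` of primes: `UH M H` (preimage of `H`
  in `G_ℚ`), `piH`, `evAlg M W q hq g : M.F ⊗ ℚ_W → ℚ̄_q` (`x ⊗ y ↦ ι_q(g⁻¹ x) · y_q`),
  `placeOf M W q hq g` (its kernel, a place of `M` above `q`), `cDatum`, `cH2`
  (`c_{q,g} : H²(H, J_W(M)) → lBr q (locSub q g (UH M H))`), `inflDatum`, `inflL`
  (`H²(H, Mˣ) → gBr (UH M H)`);
* `reps U q` : chosen representatives of `U \ G_ℚ / D_q`;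
* `sigma I M H = ∑_{q ∈ S} ∑_{g ∈ reps (UH M H) q} I.inv ∘ c_{q,g}`.
-/
import Fermat.Agent.S55.G.Rec.Tow.Spec
import Fermat.Agent.S55.G.Rec.Spec
import Fermat.Agent.S55.Bridge.HDesc
import Fermat.Agent.S55.G.Rec.SCH174.Reps
import Fermat.Agent.S55.G.PL0H713

set_option autoImplicit false
set_option linter.unusedSectionVars false
set_option linter.style.haveILetI false

open CategoryTheory groupCohomology
open scoped TensorProduct

noncomputable section

namespace Fermat.Agent.S55.G.Rec.TOW.FR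

open Fermat.Agent.S55 Fermat.Agent.S55.Tow Fermat.Agent.S55.E1.H594 Fermat.Agent.S55.G.Rec

local notation "Qb" => AlgebraicClosure ℚ
local notation "GQ" => (AlgebraicClosure ℚ ≃ₐ[ℚ] AlgebraicClosure ℚ)

/-! ## 1. Abstract pull–push into the Prelude Brauer groups -/

section Abstract

/-- Descend an additive map on 2-cocycles that kills coboundaries to `H2` (additive version of
`Bridge.H2desc`; generic in the coefficient ring, no `Module ℤ` diamond). -/
def H2descAdd {k G : Type} [CommRing k] [Group G] (A : Rep.{0} k G) {X : Type*} [AddCommGroup X]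
    (g : cocycles₂ A →+ X)
    (hg : ∀ c : cocycles₂ A, (c : G × G → A) ∈ coboundaries₂ A → g c = 0) : H2 A →+ X :=
  (QuotientAddGroup.lift (H2π A).hom.toAddMonoidHom.ker g (by
      intro c hc
      rw [AddMonoidHom.mem_ker] at hc ⊢
      exact hg c ((H2π_eq_zero_iff c).1 hc))).comp
    (QuotientAddGroup.quotientKerEquivOfSurjective (H2π A).hom.toAddMonoidHom
      (Bridge.H2π_surjective A)).symm.toAddMonoidHom

@[simp] theorem H2descAdd_H2π {k G : Type} [CommRing k] [Group G] (A : Rep.{0} k G) {X : Type*}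
    [AddCommGroup X] (g : cocycles₂ A →+ X)
    (hg : ∀ c : cocycles₂ A, (c : G × G → A) ∈ coboundaries₂ A → g c = 0) (c : cocycles₂ A) :
    H2descAdd A g hg ((H2π A).hom c) = g c := by
  unfold H2descAdd
  rw [AddMonoidHom.comp_apply]
  have h : (QuotientAddGroup.quotientKerEquivOfSurjective (H2π A).hom.toAddMonoidHom
      (Bridge.H2π_surjective A)).symm ((H2π A).hom c) = QuotientAddGroup.mk c := by
    rw [AddEquiv.symm_apply_eq]
    rfl
  rw [AddEquiv.coe_toAddMonoidHom, h]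
  rfl

/-- An additive map between the underlying groups of two representations over `ℤ` is `ℤ`-linear
for the module structures carried by the representations. -/
def linOfAdd {G₁ G₂ : Type} [Group G₁] [Group G₂] {A : Rep.{0} ℤ G₁} {B : Rep.{0} ℤ G₂}
    (ψ : A.V →+ B.V) : @LinearMap ℤ ℤ _ _ (RingHom.id ℤ) A.V B.V _ _ A.hV2 B.hV2 :=
  letI := A.hV2
  letI := B.hV2
  { toFun := ψ
    map_add' := ψ.map_add
    map_smul' := fun c x => by
      rw [RingHom.id_apply]
      exact ((congrArg ψ (int_smul_eq_zsmul A.hV2 c x)).trans (map_zsmul ψ c x)).trans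
        (int_smul_eq_zsmul B.hV2 c (ψ x)).symm }

@[simp] lemma linOfAdd_apply {G₁ G₂ : Type} [Group G₁] [Group G₂] {A : Rep.{0} ℤ G₁}
    {B : Rep.{0} ℤ G₂} (ψ : A.V →+ B.V) (x : A.V) : linOfAdd ψ x = ψ x := rfl

variable {Γ : Type} [Group Γ] (A : Rep.{0} ℤ Γ)

/-- A **local datum**: a homomorphism `h : V → Γ` from an (open) subgroup `V ≤ G_{ℚ_q}` to the
finite-level group, trivial on a level, and an equivariant additive map `φ : A → ℚ̄_qˣ`. -/
structure LocDatum (q : ℕ) [Fact q.Prime]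
    (V : Subgroup (PadicAlgCl q ≃ₐ[ℚ_[q]] PadicAlgCl q)) where
  /-- the group homomorphism -/
  h : ↥V →* Γ
  /-- the coefficient map -/
  φ : A.V →+ (lModOn q V).V
  equivariant : ∀ (τ : ↥V) (a : A.V), φ (A.ρ (h τ) a) = (lModOn q V).ρ τ (φ a)
  level : ∃ F : IntermediateField ℚ Qb, FiniteDimensional ℚ F ∧
    ∀ τ : ↥V, lHom q V τ ∈ F.fixingSubgroup → h τ = 1

/-- A **global datum**: a homomorphism `h : U → Γ` from an (open) subgroup `U ≤ G_ℚ`, trivial on
a level, and an equivariant additive map `φ : A → ℚ̄ˣ`. -/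
structure GlobDatum (U : Subgroup GQ) where
  /-- the group homomorphism -/
  h : ↥U →* Γ
  /-- the coefficient map -/
  φ : A.V →+ (gModOn U).V
  equivariant : ∀ (u : ↥U) (a : A.V), φ (A.ρ (h u) a) = (gModOn U).ρ u (φ a)
  level : ∃ F : IntermediateField ℚ Qb, FiniteDimensional ℚ F ∧
    ∀ u : ↥U, (u : GQ) ∈ F.fixingSubgroup → h u = 1

variable {A}

namespace LocDatum

variable {q : ℕ} [Fact q.Prime] {V : Subgroup (PadicAlgCl q ≃ₐ[ℚ_[q]] PadicAlgCl q)}
  (d : LocDatum A q V)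

/-- The pull–push of a 2-cochain: `(τ, τ') ↦ φ (x (h τ, h τ'))`. -/
def push₂ (x : Γ × Γ → A.V) : ↥V × ↥V → (lModOn q V).V := fun p => d.φ (x (d.h p.1, d.h p.2))

/-- The pull–push of a 1-cochain: `τ ↦ φ (x (h τ))`. -/
def push₁ (x : Γ → A.V) : ↥V → (lModOn q V).V := fun τ => d.φ (x (d.h τ))

lemma push₂_eq (x : Γ × Γ → A.V) :
    d.push₂ x = cochainsPullPush₂ d.h (linOfAdd d.φ) x := rfl

lemma push₁_eq (x : Γ → A.V) :
    d.push₁ x = cochainsPullPush₁ d.h (linOfAdd d.φ) x := rfl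

lemma isLevelConstant₂ (x : Γ × Γ → A.V) : IsLevelConstant₂ (lHom q V) (d.push₂ x) := by
  obtain ⟨F, hF, h⟩ := d.level
  refine ⟨F, hF, fun g g' s s' hs hs' => ?_⟩
  simp only [push₂, map_mul, h s hs, h s' hs', mul_one]

lemma isLevelConstant₁ (x : Γ → A.V) : IsLevelConstant₁ (lHom q V) (d.push₁ x) := by
  obtain ⟨F, hF, h⟩ := d.level
  refine ⟨F, hF, fun g s hs => ?_⟩
  simp only [push₁, map_mul, h s hs, mul_one]

lemma push₂_mem_levelCocycles₂ (c : cocycles₂ A) :
    d.push₂ c ∈ levelCocycles₂ (lHom q V) (lModOn q V) :=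
  ⟨cochainsPullPush₂_mem_cocycles₂ d.h (linOfAdd d.φ) d.equivariant c.2, d.isLevelConstant₂ _⟩

lemma push₂_d₁₂ (y : Γ → A.V) :
    d.push₂ ((d₁₂ A).hom y) = (d₁₂ (lModOn q V)).hom (d.push₁ y) :=
  cochainsPullPush₂_d₁₂ d.h (linOfAdd d.φ) d.equivariant y

/-- The map on cocycles. -/
def cocycles : cocycles₂ A →+ ↥(levelCocycles₂ (lHom q V) (lModOn q V)) where
  toFun c := ⟨d.push₂ c, d.push₂_mem_levelCocycles₂ c⟩
  map_zero' := Subtype.ext (funext fun _ => map_zero d.φ)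
  map_add' _ _ := Subtype.ext (funext fun _ => map_add d.φ _ _)

@[simp] lemma coe_cocycles (c : cocycles₂ A) :
    (d.cocycles c : ↥V × ↥V → lModOn q V) = d.push₂ c := rfl

lemma cocycles_apply (c : cocycles₂ A) (τ τ' : ↥V) :
    (d.cocycles c : ↥V × ↥V → lModOn q V) (τ, τ') = d.φ (c (d.h τ, d.h τ')) := rfl

/-- **The map `H²(Γ, A) → lBr q V` of a local datum.** -/
def map : H2 A →+ lBr q V :=
  H2descAdd A ((continuousH2π (lHom q V) (lModOn q V)).toAddMonoidHom.comp d.cocycles) (by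
    intro c hc
    rw [AddMonoidHom.comp_apply]
    show continuousH2π (lHom q V) (lModOn q V) (d.cocycles c) = 0
    rw [continuousH2π_eq_zero_iff, mem_levelCoboundaries₂_iff]
    obtain ⟨y, hy⟩ := hc
    refine ⟨d.push₁ y, d.isLevelConstant₁ y, ?_⟩
    rw [coe_cocycles, ← hy]
    exact (d.push₂_d₁₂ y).symm)

@[simp] lemma map_H2π (c : cocycles₂ A) :
    d.map ((H2π A).hom c) = continuousH2π (lHom q V) (lModOn q V) (d.cocycles c) :=
  H2descAdd_H2π _ _ _ c

/-- Two local data with the same `h` and `φ` induce the same map. -/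
lemma map_congr {d d' : LocDatum A q V} (hh : d.h = d'.h) (hφ : d.φ = d'.φ) : d.map = d'.map := by
  cases d; cases d'; cases hh; cases hφ; rfl

/-- Composition of a local datum with a morphism of pairs `(f, ψ) : (Γ, A) → (Γ', A')`. -/
def comp {Γ' : Type} [Group Γ'] {A' : Rep.{0} ℤ Γ'} (d : LocDatum A' q V) (f : Γ' →* Γ)
    (ψ : Rep.res f A ⟶ A') : LocDatum A q V where
  h := f.comp d.h
  φ := d.φ.comp (AddMonoidHom.mk' (fun a : A.V => (ψ.hom a : A'.V)) (fun a b => map_add ψ.hom a b))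
  equivariant τ a := by
    have h1 : ψ.hom (A.ρ (f (d.h τ)) a) = A'.ρ (d.h τ) (ψ.hom a) :=
      Rep.hom_comm_apply ψ (d.h τ) a
    show d.φ (ψ.hom (A.ρ (f (d.h τ)) a)) = _
    rw [h1]
    exact d.equivariant τ (ψ.hom a)
  level := by
    obtain ⟨F, hF, h⟩ := d.level
    exact ⟨F, hF, fun τ hτ => by rw [MonoidHom.comp_apply, h τ hτ, map_one]⟩

theorem map_comp {Γ' : Type} [Group Γ'] {A' : Rep.{0} ℤ Γ'} (d : LocDatum A' q V) (f : Γ' →* Γ)
    (ψ : Rep.res f A ⟶ A') (x : H2 A) :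
    (d.comp f ψ).map x = d.map ((groupCohomology.map f ψ 2).hom x) := by
  obtain ⟨c, rfl⟩ := Bridge.H2π_surjective A x
  have h := congrArg (fun φ => φ.hom c) (H2π_comp_map (A := A) (B := A') f ψ)
  simp only [ModuleCat.hom_comp, LinearMap.comp_apply] at h
  rw [h, map_H2π, map_H2π]
  rfl

/-- Restriction of a local datum to a smaller subgroup. -/
def restrict {V' : Subgroup (PadicAlgCl q ≃ₐ[ℚ_[q]] PadicAlgCl q)} (hV : V' ≤ V) :
    LocDatum A q V' where
  h := d.h.comp (Subgroup.inclusion hV)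
  φ := d.φ
  equivariant τ a := d.equivariant (Subgroup.inclusion hV τ) a
  level := by
    obtain ⟨F, hF, h⟩ := d.level
    exact ⟨F, hF, fun τ hτ => h (Subgroup.inclusion hV τ) hτ⟩

theorem map_restrict {V' : Subgroup (PadicAlgCl q ≃ₐ[ℚ_[q]] PadicAlgCl q)} (hV : V' ≤ V)
    (x : H2 A) : (d.restrict hV).map x = lRes q hV (d.map x) := by
  obtain ⟨c, rfl⟩ := Bridge.H2π_surjective A x
  rw [map_H2π, map_H2π]
  rfl

end LocDatum

namespace GlobDatum

variable {U : Subgroup GQ} (d : GlobDatum A U)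

/-- The pull–push of a 2-cochain. -/
def push₂ (x : Γ × Γ → A.V) : ↥U × ↥U → (gModOn U).V := fun p => d.φ (x (d.h p.1, d.h p.2))

/-- The pull–push of a 1-cochain. -/
def push₁ (x : Γ → A.V) : ↥U → (gModOn U).V := fun u => d.φ (x (d.h u))

lemma isLevelConstant₂ (x : Γ × Γ → A.V) : IsLevelConstant₂ U.subtype (d.push₂ x) := by
  obtain ⟨F, hF, h⟩ := d.level
  refine ⟨F, hF, fun g g' s s' hs hs' => ?_⟩
  simp only [push₂, map_mul, h s hs, h s' hs', mul_one]

lemma isLevelConstant₁ (x : Γ → A.V) : IsLevelConstant₁ U.subtype (d.push₁ x) := by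
  obtain ⟨F, hF, h⟩ := d.level
  refine ⟨F, hF, fun g s hs => ?_⟩
  simp only [push₁, map_mul, h s hs, mul_one]

lemma push₂_mem_levelCocycles₂ (c : cocycles₂ A) :
    d.push₂ c ∈ levelCocycles₂ U.subtype (gModOn U) :=
  ⟨cochainsPullPush₂_mem_cocycles₂ d.h (linOfAdd d.φ) d.equivariant c.2, d.isLevelConstant₂ _⟩

lemma push₂_d₁₂ (y : Γ → A.V) :
    d.push₂ ((d₁₂ A).hom y) = (d₁₂ (gModOn U)).hom (d.push₁ y) :=
  cochainsPullPush₂_d₁₂ d.h (linOfAdd d.φ) d.equivariant y

/-- The map on cocycles. -/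
def cocycles : cocycles₂ A →+ ↥(levelCocycles₂ U.subtype (gModOn U)) where
  toFun c := ⟨d.push₂ c, d.push₂_mem_levelCocycles₂ c⟩
  map_zero' := Subtype.ext (funext fun _ => map_zero d.φ)
  map_add' _ _ := Subtype.ext (funext fun _ => map_add d.φ _ _)

@[simp] lemma coe_cocycles (c : cocycles₂ A) :
    (d.cocycles c : ↥U × ↥U → gModOn U) = d.push₂ c := rfl

lemma cocycles_apply (c : cocycles₂ A) (u u' : ↥U) :
    (d.cocycles c : ↥U × ↥U → gModOn U) (u, u') = d.φ (c (d.h u, d.h u')) := rfl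

/-- **The map `H²(Γ, A) → gBr U` of a global datum.** -/
def map : H2 A →+ gBr U :=
  H2descAdd A ((continuousH2π U.subtype (gModOn U)).toAddMonoidHom.comp d.cocycles) (by
    intro c hc
    rw [AddMonoidHom.comp_apply]
    show continuousH2π U.subtype (gModOn U) (d.cocycles c) = 0
    rw [continuousH2π_eq_zero_iff, mem_levelCoboundaries₂_iff]
    obtain ⟨y, hy⟩ := hc
    refine ⟨d.push₁ y, d.isLevelConstant₁ y, ?_⟩
    rw [coe_cocycles, ← hy]
    exact (d.push₂_d₁₂ y).symm)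

@[simp] lemma map_H2π (c : cocycles₂ A) :
    d.map ((H2π A).hom c) = continuousH2π U.subtype (gModOn U) (d.cocycles c) :=
  H2descAdd_H2π _ _ _ c

/-- Localisation of a global datum at the place `(q, g)`. -/
def loc (q : ℕ) [Fact q.Prime] (g : GQ) : LocDatum A q (locSub q g U) where
  h := d.h.comp (locHom q g U)
  φ := (locPush q g U).toAddMonoidHom.comp d.φ
  equivariant τ a := by
    show locPush q g U (d.φ (A.ρ (d.h (locHom q g U τ)) a)) = _
    rw [d.equivariant, locPush_equivariant]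
    rfl
  level := by
    obtain ⟨F, hF, h⟩ := d.level
    refine ⟨F.map (g⁻¹ : GQ).toAlgHom, finiteDimensional_map_inv F g, fun τ hτ => ?_⟩
    rw [MonoidHom.comp_apply]
    exact h _ ((mem_fixingSubgroup_map_inv F g _).1 hτ)

/-- Localisation commutes with the maps of the data: `locBr ∘ d.map = (d.loc q g).map`. -/
theorem locBr_map (q : ℕ) [Fact q.Prime] (g : GQ) (x : H2 A) :
    locBr q g U (d.map x) = (d.loc q g).map x := by
  obtain ⟨c, rfl⟩ := Bridge.H2π_surjective A x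
  rw [map_H2π, LocDatum.map_H2π, locBr_mk]
  rfl

end GlobDatum

end Abstract

/-! ## 2. The data of a Tower level `M` and a subgroup `H ≤ Gal(M/ℚ)` -/

section Level

variable {S : Finset Nat.Primes} (M : Level S) (H : Subgroup M.Gal)

/-- The preimage of `H ≤ Gal(M/ℚ)` in `G_ℚ`: the absolute Galois group of `K = M^H`. -/
def UH : Subgroup GQ := H.comap (QuotientGroup.mk' M.U)

lemma mem_UH {u : GQ} : u ∈ UH M H ↔ (QuotientGroup.mk u : M.Gal) ∈ H := Iff.rfl

lemma U_le_UH : M.U ≤ UH M H := fun u hu => by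
  rw [mem_UH, (QuotientGroup.eq_one_iff u).2 hu]
  exact H.one_mem

lemma isOpenQ_UH : IsOpenQ (UH M H) :=
  ⟨M.F, level_finiteDimensional M, U_le_UH M H⟩

/-- The projection `U_H → H`. -/
def piH : ↥(UH M H) →* ↥H :=
  ((QuotientGroup.mk' M.U).comp (UH M H).subtype).codRestrict H (fun u => u.2)

@[simp] lemma coe_piH (u : ↥(UH M H)) : ((piH M H u : ↥H) : M.Gal) = QuotientGroup.mk (u : GQ) :=
  rfl

lemma piH_surjective : Function.Surjective (piH M H) := by
  rintro ⟨γ, hγ⟩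
  obtain ⟨u, rfl⟩ := QuotientGroup.mk_surjective γ
  exact ⟨⟨u, hγ⟩, rfl⟩

lemma piH_eq_one_of_mem {u : ↥(UH M H)} (hu : (u : GQ) ∈ M.F.fixingSubgroup) :
    piH M H u = 1 :=
  Subtype.ext ((QuotientGroup.eq_one_iff (u : GQ)).2 hu)

/-! ### The global datum: inflation `H²(H, Mˣ) → gBr (UH M H)` -/

/-- The inclusion `Mˣ → ℚ̄ˣ`, additively. -/
def unitsIncl : Additive (M.F)ˣ →+ Additive Qbˣ :=
  MonoidHom.toAdditive (Units.map (M.F.val : M.F →* Qb))

lemma unitsIncl_coe (x : Additive (M.F)ˣ) :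
    ((Additive.toMul (unitsIncl M x) : Qbˣ) : Qb) = ((Additive.toMul x : (M.F)ˣ) : M.F) := rfl

/-- The global datum of `(M, H)` with coefficients `Mˣ`. -/
def inflDatum : GlobDatum (T.resSub (lvlL M) H) (UH M H) where
  h := piH M H
  φ := unitsIncl M
  equivariant u a := by
    apply Additive.toMul.injective
    apply Units.ext
    exact level_mk_smul M (u : GQ) ((Additive.toMul a : (M.F)ˣ) : M.F)
  level := ⟨M.F, level_finiteDimensional M, fun _ hu => piH_eq_one_of_mem M H hu⟩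

/-- **Inflation** `H²(H, Mˣ) → gBr (UH M H) = Br(M^H)`. -/
def inflL : H2 (T.resSub (lvlL M) H) →+ gBr (UH M H) := (inflDatum M H).map

/-! ### The evaluation maps `M ⊗ ℚ_W → ℚ̄_q`

`W` is an ARBITRARY finite set of primes (the idèles `J_W(M) = (M ⊗ ℚ_W)ˣ` make sense for every
`W`; for the semilocal invariant `W = S`, for `IsAt` also `W = S.erase r`). -/

variable (W : Finset Nat.Primes) (q : ℕ) [hq : Fact q.Prime]
  (hqW : (⟨q, hq.out⟩ : Nat.Primes) ∈ W)

/-- `M → ℚ̄_q`, `x ↦ ι_q (g⁻¹ x)`. -/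
def evF (g : GQ) : M.F →ₐ[ℚ] PadicAlgCl q :=
  ((padicEmbedding q).toRingHom.comp
    (((g⁻¹ : GQ) : Qb →+* Qb).comp M.F.val.toRingHom)).toRatAlgHom

lemma evF_apply (g : GQ) (x : M.F) : evF M q g x = padicEmbedding q (g⁻¹ (x : Qb)) := rfl

/-- `ℚ_T → ℚ_q → ℚ̄_q`. -/
def evQS : G.QS W →ₐ[ℚ] PadicAlgCl q :=
  ((algebraMap ℚ_[q] (PadicAlgCl q)).comp
    (G.QS.proj W ⟨⟨q, hq.out⟩, hqW⟩).toRingHom).toRatAlgHom

lemma evQS_apply (y : G.QS W) :
    evQS W q hqW y = algebraMap ℚ_[q] (PadicAlgCl q) (y ⟨⟨q, hq.out⟩, hqW⟩) := rfl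

/-- **The evaluation** `ev_{q,g} : M ⊗ ℚ_T → ℚ̄_q`, `x ⊗ y ↦ ι_q (g⁻¹ x) · y_q`. -/
def evAlg (g : GQ) : G.AS W M.F →ₐ[ℚ] PadicAlgCl q :=
  Algebra.TensorProduct.lift (evF M q g) (evQS W q hqW) (fun _ _ => Commute.all _ _)

@[simp] lemma evAlg_tmul (g : GQ) (x : M.F) (y : G.QS W) :
    evAlg M W q hqW g (x ⊗ₜ[ℚ] y) =
      padicEmbedding q (g⁻¹ (x : Qb)) * algebraMap ℚ_[q] (PadicAlgCl q) (y ⟨⟨q, hq.out⟩, hqW⟩) :=
  by simp [evAlg, evF_apply, evQS_apply]

lemma evAlg_asDiag (g : GQ) (x : M.F) :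
    evAlg M W q hqW g (G.asDiag W M.F x) = padicEmbedding q (g⁻¹ (x : Qb)) := by
  show evAlg M W q hqW g (x ⊗ₜ[ℚ] 1) = _
  have h1 : (1 : G.QS W) ⟨⟨q, hq.out⟩, hqW⟩ = 1 := rfl
  rw [evAlg_tmul, h1, map_one, mul_one]

lemma evAlg_asIncl (g : GQ) (y : G.QS W) :
    evAlg M W q hqW g (G.asIncl W M.F y) =
      algebraMap ℚ_[q] (PadicAlgCl q) (y ⟨⟨q, hq.out⟩, hqW⟩) := by
  show evAlg M W q hqW g (1 ⊗ₜ[ℚ] y) = _
  simp

/-- Equivariance of the evaluation: for `τ ∈ G_{ℚ_q}`,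
`ev_{q,g} ((g · loc τ · g⁻¹) • a) = τ (ev_{q,g} a)`. -/
theorem evAlg_equivariant (g : GQ) (τ : PadicAlgCl q ≃ₐ[ℚ_[q]] PadicAlgCl q) (a : G.AS W M.F) :
    evAlg M W q hqW g (G.asAut W M.Gal M.F
        (QuotientGroup.mk (g * localGaloisToGlobal q τ * g⁻¹) : M.Gal) a) =
      τ (evAlg M W q hqW g a) := by
  induction a using TensorProduct.induction_on with
  | zero => simp
  | add a b ha hb => simp only [map_add, ha, hb]
  | tmul x y =>
    have h1 : G.asAut W M.Gal M.F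
        (QuotientGroup.mk (g * localGaloisToGlobal q τ * g⁻¹) : M.Gal) (x ⊗ₜ[ℚ] y) =
        (((QuotientGroup.mk (g * localGaloisToGlobal q τ * g⁻¹) : M.Gal) • x) ⊗ₜ[ℚ] y) := rfl
    rw [h1, evAlg_tmul, evAlg_tmul, map_mul, level_mk_smul, AlgEquiv.commutes]
    congr 1
    rw [← padicEmbedding_localGaloisToGlobal]
    congr 1
    simp [AlgEquiv.mul_apply]

/-- Change of representative on the left: `ev_{q, u g} = ev_{q, g} ∘ (ū⁻¹ • ·)`. -/
theorem evAlg_mul_left (u g : GQ) (a : G.AS W M.F) :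
    evAlg M W q hqW (u * g) a =
      evAlg M W q hqW g (G.asAut W M.Gal M.F (QuotientGroup.mk u⁻¹ : M.Gal) a) := by
  induction a using TensorProduct.induction_on with
  | zero => simp
  | add a b ha hb => simp only [map_add, ha, hb]
  | tmul x y =>
    have h1 : G.asAut W M.Gal M.F (QuotientGroup.mk u⁻¹ : M.Gal) (x ⊗ₜ[ℚ] y) =
        (((QuotientGroup.mk u⁻¹ : M.Gal) • x) ⊗ₜ[ℚ] y) := rfl
    rw [h1, evAlg_tmul, evAlg_tmul, level_mk_smul]
    congr 2

/-- Compatibility with the projections `ℚ_{W'} → ℚ_W`, `W ⊆ W'`. -/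
theorem evAlg_asRes {W' : Finset Nat.Primes} (hW : W ⊆ W') (g : GQ) (a : G.AS W' M.F) :
    evAlg M W q hqW g (G.asRes hW M.F a) = evAlg M W' q (hW hqW) g a := by
  induction a using TensorProduct.induction_on with
  | zero => simp
  | add a b ha hb => simp only [map_add, ha, hb]
  | tmul x y => rw [G.asRes_tmul, evAlg_tmul, evAlg_tmul]; rfl

/-- `ev_{q,g}` on units, additively. -/
def evU (g : GQ) : Additive (G.AS W M.F)ˣ →+ Additive (PadicAlgCl q)ˣ :=
  MonoidHom.toAdditive (Units.map (evAlg M W q hqW g : G.AS W M.F →* PadicAlgCl q))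

lemma evU_coe (g : GQ) (a : Additive (G.AS W M.F)ˣ) :
    ((Additive.toMul (evU M W q hqW g a) : (PadicAlgCl q)ˣ) : PadicAlgCl q) =
      evAlg M W q hqW g ((Additive.toMul a : (G.AS W M.F)ˣ) : G.AS W M.F) := rfl

/-- **The place of `M` above `q ∈ W` induced by `ι_q ∘ g⁻¹`**: the kernel of `ev_{q,g}`. -/
def placeOf (g : GQ) : G.SPlace W M.F where
  asIdeal := RingHom.ker (evAlg M W q hqW g)
  isMaximal := by
    haveI := G.PL0H713.isArtinianRing_AS W M.F
    haveI : (RingHom.ker (evAlg M W q hqW g)).IsPrime := RingHom.ker_isPrime _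
    exact IsArtinianRing.isMaximal_of_isPrime _

lemma mem_placeOf (g : GQ) (a : G.AS W M.F) :
    a ∈ (placeOf M W q hqW g).asIdeal ↔ evAlg M W q hqW g a = 0 := RingHom.mem_ker

/-- **The local datum `c_{q,g}`** of `(M, H)` at the place of `M^H` induced by `ι_q ∘ g⁻¹`,
with coefficients `J_T(M)`. -/
def cDatum (g : GQ) : LocDatum (T.resSub (G.JRep M.Gal W M.F) H) q (locSub q g (UH M H)) where
  h := (piH M H).comp (locHom q g (UH M H))
  φ := evU M W q hqW g
  equivariant τ a := by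
    apply Additive.toMul.injective
    apply Units.ext
    exact evAlg_equivariant M W q hqW g (τ : PadicAlgCl q ≃ₐ[ℚ_[q]] PadicAlgCl q) _
  level := by
    refine ⟨M.F.map (g⁻¹ : GQ).toAlgHom,
      haveI := level_finiteDimensional M
      finiteDimensional_map_inv M.F g, fun τ hτ => ?_⟩
    rw [MonoidHom.comp_apply]
    exact piH_eq_one_of_mem M H ((mem_fixingSubgroup_map_inv M.F g _).1 hτ)

/-- **The localisation map** `c_{q,g} : H²(H, J_T(M)) → lBr q (locSub q g (UH M H))`. -/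
def cH2 (g : GQ) :
    H2 (T.resSub (G.JRep M.Gal W M.F) H) →+ lBr q (locSub q g (UH M H)) :=
  (cDatum M H W q hqW g).map

end Level

/-! ## 3. Representatives of the places and the semilocal invariant -/

/-- Chosen representatives of the double cosets `U \ G_ℚ / D_q` (the places of `ℚ̄^U` above `q`);
`∅` if `U` has infinitely many double cosets. -/
def reps (U : Subgroup GQ) (q : ℕ) [Fact q.Prime] : Finset GQ :=
  open Classical in
  if h : ∃ R : Finset GQ, IsDoubleCosetReps U (localGaloisToGlobal q).range R then h.choose else ∅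

lemma reps_spec {U : Subgroup GQ} (hU : IsOpenQ U) (q : ℕ) [Fact q.Prime] :
    IsDoubleCosetReps U (localGaloisToGlobal q).range (reps U q) := by
  have h := H174.exists_placeReps hU q
  unfold reps
  rw [dif_pos h]
  exact h.choose_spec

/-- The contribution of the prime `q ∈ S` to the semilocal invariant. -/
def sigmaAt (I : LocalInvSystem) {S : Finset Nat.Primes} (M : Level S) (H : Subgroup M.Gal)
    (q : S) : H2 (T.resSub (lvlJ M) H) →+ AddCircle (1 : ℚ) :=
  haveI : Fact ((q.1 : ℕ).Prime) := ⟨q.1.2⟩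
  ∑ g ∈ reps (UH M H) (q.1 : ℕ),
    (I.inv (q.1 : ℕ) (locSub (q.1 : ℕ) g (UH M H))).comp (cH2 M H S (q.1 : ℕ) q.2 g)

/-- **The semilocal invariant** `σ_H = ∑_{v | S} inv_v : H²(H, J_S(M)) → ℚ/ℤ`
(sum over the places `v` of `M^H` above `S`). -/
def sigma (I : LocalInvSystem) {S : Finset Nat.Primes} (M : Level S) (H : Subgroup M.Gal) :
    H2 (T.resSub (lvlJ M) H) →+ AddCircle (1 : ℚ) :=
  ∑ q : S, sigmaAt I M H q

lemma sigma_apply (I : LocalInvSystem) {S : Finset Nat.Primes} (M : Level S)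
    (H : Subgroup M.Gal) (y : H2 (T.resSub (lvlJ M) H)) :
    sigma I M H y = ∑ q : S, sigmaAt I M H q y := by
  simp [sigma]

lemma sigmaAt_apply (I : LocalInvSystem) {S : Finset Nat.Primes} (M : Level S)
    (H : Subgroup M.Gal) (q : S) (y : H2 (T.resSub (lvlJ M) H)) :
    sigmaAt I M H q y =
      haveI : Fact ((q.1 : ℕ).Prime) := ⟨q.1.2⟩
      ∑ g ∈ reps (UH M H) (q.1 : ℕ),
        I.inv (q.1 : ℕ) (locSub (q.1 : ℕ) g (UH M H)) (cH2 M H S (q.1 : ℕ) q.2 g y) := by
  simp [sigmaAt]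

end Fermat.Agent.S55.G.Rec.TOW.FR
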