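/-
S55 / layer G / block REC / adapter TOW / leaf FR (subtask 558) — LEAF INTERFACE.
Sub-architect of FR: helper353.   Plan: `coord/S55-REC-TOW-FR.md`.

Target (file `FR/Assembly.lean`, helper353):
  `finRec_of (I : LocalInvSystem) : ReciprocitySpec I p → OutsideSpec I → ConjSpec I → CountSpec →
      LocInjSpec → OrbitRepsSpec → LocExistSpec → PrimePlaceSpec → G.ShapiroJSpec → FinRecSpec p`
with `σ := FR.sigma I` (file `FR/Defs.lean`).

Everything here is a `def XxxSpec : Prop`; NO sorry.  Producers prove `theorem xxx : XxxSpec` in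
`Fermat/Agent/S55/G/Rec/Tow/FR/<Leaf>H<seat>.lean`, namespace
`Fermat.Agent.S55.G.Rec.TOW.FR.H<seat>`.  Never edit `Defs.lean` / `Spec.lean`.
-/
import Fermat.Agent.S55.G.Rec.Tow.FR.Defs
import Fermat.Agent.S55.G.DefsLocal

set_option autoImplicit false
set_option linter.unusedSectionVars false
set_option linter.style.haveILetI false

open CategoryTheory groupCohomology
open scoped NumberField

noncomputable section

namespace Fermat.Agent.S55.G.Rec.TOW.FR

open Fermat.Agent.S55 Fermat.Agent.S55.Tow Fermat.Agent.S55.E1.H594 Fermat.Agent.S55.G.Rec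
open IsDedekindDomain

local notation "Qb" => AlgebraicClosure ℚ
local notation "GQ" => (AlgebraicClosure ℚ ≃ₐ[ℚ] AlgebraicClosure ℚ)

/-- **FR-OUT** (vanishing outside `S`).  `M` a level of `S`, `x ∈ H²(H, Mˣ)` with trivial divisor
class (`ord_* x = 0` in `H²(H, Div^S(M))`).  Then the local invariant of the inflated class
`inflL x ∈ Br(M^H)` vanishes at every place `(q, g)` with `q ∉ S`.
(Proof: `ord ∘ f = dφ`, `φ : H → Div^S(M)`; at the prime `w` of `M` induced by `ι_q ∘ g⁻¹` and on the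
decomposition group, `ψ := φ_w` satisfies `ord_w f(a,b) = ψ a + ψ b − ψ (ab)`; `q` is a uniformizer
of `M_w` (`M` is unramified at `q ∉ S`), fixed by everything; the localised cocycle times the level
coboundary `d (τ ↦ q^{−ψ(h τ)})` has unit values, is inflated from `Gal(M_w/K_v)`, which is a
quotient of `V` by a subgroup containing the inertial elements; `I.inv_unram`.) -/
def OutsideSpec (I : LocalInvSystem) : Prop :=
  ∀ {S : Finset Nat.Primes} (M : Level S) (H : Subgroup M.Gal)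
    (x : H2 (T.resSub (lvlL M) H)),
    h2Sub (G.ordRepHom S M.Gal M.F) H x = 0 →
    ∀ q : Nat.Primes, q ∉ S → ∀ g : GQ, I.invAt q g (UH M H) (inflL M H x) = 0

/-- **FR-CONJ** (independence of the representative over `ℚ`).  For classes of the FULL group
(`H = ⊤`, so `UH M ⊤ = G_ℚ` and every `locSub q g (UH M ⊤)` is the whole local group) the local
invariant of `c_{q,g} z` does not depend on `g`.
(Proof: `g' = u g`; `ev_{q,ug} = ev_{q,g} ∘ ū⁻¹` (`evAlg_mul_left`) and
`h_{ug} τ = ū (h_g τ) ū⁻¹`, so the cochain of `c_{q,ug} z` is the push of the inner conjugate of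
the cocycle, which differs from the cocycle by the coboundary of an explicit homotopy
(`Rec.H124.innerConj_eq124`, generic); the two subgroups are equal as sets: compare through
`lRes` + `I.inv_res` with `relIndex = 1`.) -/
def ConjSpec (I : LocalInvSystem) : Prop :=
  ∀ {S : Finset Nat.Primes} (M : Level S) (W : Finset Nat.Primes) (q : ℕ) [hq : Fact q.Prime]
    (hqW : (⟨q, hq.out⟩ : Nat.Primes) ∈ W) (g g' : GQ)
    (z : H2 (T.resSub (G.JRep M.Gal W M.F) ⊤)),
    I.inv q (locSub q g (UH M ⊤)) (cH2 M ⊤ W q hqW g z) =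
      I.inv q (locSub q g' (UH M ⊤)) (cH2 M ⊤ W q hqW g' z)

/-- **FR-COUNT** (`∑_{v | q} [K_v : ℚ_q] = [K : ℚ]`, `K = M^H`).
(Proof: `Rec.H934.orbSigma_bijective` + `Subgroup.index_comap_of_surjective`;
`locSub q g (UH M ⊤) = ⊤`.) -/
def CountSpec : Prop :=
  ∀ {S : Finset Nat.Primes} (M : Level S) (H : Subgroup M.Gal) (q : ℕ) [Fact q.Prime],
    ∑ g ∈ reps (UH M H) q, (locSub q g (UH M H)).relIndex (locSub q g (UH M ⊤)) = H.index

/-- **FR-A** (local inflation is injective).  The localisation `c_{q,g}` on `H²(H, J_W(M))`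
vanishes on a class iff the intrinsic localisation `locMapJ` at the place `placeOf q g` does:
`c_{q,g} = Λ ∘ locMapJ 𝔪`, `Λ : H²(D_𝔪, M_𝔪ˣ) → lBr q V` the inflation along `V ↠ D_𝔪`, injective by
Hilbert 90.  (Model: `G/Rec/HP/{LocEmb,LocalGlue,LocH90,InflInj}.lean`, helper473, which does
the same for the groups `lvlGal U F` and coefficients `Mˣ`.) -/
def LocInjSpec : Prop :=
  ∀ {S : Finset Nat.Primes} (M : Level S) (H : Subgroup M.Gal) (W : Finset Nat.Primes)
    (q : ℕ) [hq : Fact q.Prime] (hqW : (⟨q, hq.out⟩ : Nat.Primes) ∈ W) (g : GQ)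
    (z : H2 (T.resSub (G.JRep M.Gal W M.F) H)),
    cH2 M H W q hqW g z = 0 ↔ (G.locMapJ W ↥H (placeOf M W q hqW g) 2).hom z = 0

/-- **FR-B** (places = double cosets).  Every place `𝔪` of `M` above `W` is `H`-conjugate to
`placeOf q g` for a UNIQUE pair `(q, g)`, `q ∈ W`, `g ∈ reps (UH M H) q`.
(Proof: (i) `placeOf q (u g d) = ū • placeOf q g` for `u ∈ UH M H`, `d ∈ D_q`; (ii) every place is
some `placeOf q g` (`HP.exists_placeEmb`, helper473 / `HP.PlaceEmbSpec`); (iii) `placeOf q g =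
placeOf q' g'` ⇒ `q = q'` and `g' ∈ M.U · g · D_q`: two embeddings of `M_𝔪` into `ℚ̄_q` over `ℚ_q`
differ by an element of `Gal(ℚ̄_q/ℚ_q)`.) -/
def OrbitRepsSpec : Prop :=
  ∀ {S : Finset Nat.Primes} (M : Level S) (H : Subgroup M.Gal) (W : Finset Nat.Primes)
    (𝔪 : G.SPlace W M.F),
    ∃! x : (q : W) × {g : GQ //
        haveI : Fact ((q.1 : ℕ).Prime) := ⟨q.1.2⟩
        g ∈ reps (UH M H) (q.1 : ℕ)},
      haveI : Fact ((x.1.1 : ℕ).Prime) := ⟨x.1.1.2⟩
      ∃ h : ↥H, G.sPlaceSMul W ↥H h (placeOf M W (x.1.1 : ℕ) x.1.2 x.2.1) = 𝔪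

/-- **FR-C** (local classes; intrinsic model of layer G, no Tower).  For a finite group `Γ` acting
faithfully on a number field `L` and a place `𝔪` above `W`, the group `H²(D_𝔪, L_𝔪ˣ)` contains an
element of exact order `n` for every divisor `n` of `|D_𝔪|`.
(Proof: `D_𝔪` acts faithfully on `L_𝔪` (`G.H953.locAut_injective`), `L_𝔪 / L_𝔪^{D_𝔪}` is Galois with
group `D_𝔪`, the base is a finite extension of `ℚ_q`, hence a local field
(`PL0H713.isLocalFld_of_finite_padic`); `L.H2CyclicSpec` / `L.ClassModuleSpec` (closed on main: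
`L.AllClosed`) give `H² ≅ ℤ/|D_𝔪|`.  Cf. `G/JGlueClosedH604.lean` for the cyclic case.) -/
def LocExistSpec : Prop :=
  ∀ (W : Finset Nat.Primes) (Γ L : Type) [Group Γ] [Finite Γ] [Field L] [NumberField L]
    [MulSemiringAction Γ L] [FaithfulSMul Γ L] (𝔪 : G.SPlace W L) (n : ℕ),
    n ∣ Nat.card (G.decomp W Γ 𝔪) →
    ∃ u : groupCohomology (G.LocRep W Γ 𝔪) 2, n • u = 0 ∧ ∀ k : ℕ, k • u = 0 → n ∣ k

/-- **FR-D** (primes to places).  A subgroup fixing a prime of `𝒪_M` above `r ∈ S` fixes a place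
of `M ⊗ ℚ_S`.  (From `G.PlacePrimeSpec`, closed on main.) -/
def PrimePlaceSpec : Prop :=
  ∀ {S : Finset Nat.Primes} (M : Level S) (r : Nat.Primes), r ∈ S → ∀ Z : Subgroup M.Gal,
    FixesPrimeAbove M r Z →
    ∃ 𝔪 : G.SPlace S M.F, ∀ z ∈ Z, G.sPlaceSMul S M.Gal z 𝔪 = 𝔪

end Fermat.Agent.S55.G.Rec.TOW.FR
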