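/-
S55 / layer G / block REC / adapter TOW / leaf FR — ASSEMBLY of `locClass` (helper481).

`locClass_of I p : PrimePlaceSpec → OrbitRepsSpec → LocExistSpec → LocInjSpec → G.ShapiroJSpec →
  <the field `locClass` of `TOW.SemiLocalInv p` for `σ = FR.sigma I`>`.
No `sorry`.
-/
import Fermat.Agent.S55.G.Rec.Tow.FR.Spec
import Fermat.Agent.S55.G.Rec.SupportFiniteH181

set_option autoImplicit false
set_option linter.unusedSectionVars false
set_option linter.style.haveILetI false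

open CategoryTheory groupCohomology
open scoped NumberField

noncomputable section

namespace Fermat.Agent.S55.G.Rec.TOW.FR.H481

open Fermat.Agent.S55 Fermat.Agent.S55.Tow Fermat.Agent.S55.E1.H594 Fermat.Agent.S55.G.Rec
open Fermat.Agent.S55.G.Rec.TOW Fermat.Agent.S55.G.Rec.TOW.FR
open IsDedekindDomain

local notation "Qb" => AlgebraicClosure ℚ
local notation "GQ" => (AlgebraicClosure ℚ ≃ₐ[ℚ] AlgebraicClosure ℚ)

variable {S : Finset Nat.Primes} (M : Level S) (H : Subgroup M.Gal)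

/-- The index type of the places of `M^H` above `W`: pairs `(q, g)`, `q ∈ W`, `g ∈ reps`. -/
abbrev Pair (W : Finset Nat.Primes) : Type :=
  (q : W) × {g : GQ //
    haveI : Fact ((q.1 : ℕ).Prime) := ⟨q.1.2⟩
    g ∈ reps (UH M H) (q.1 : ℕ)}

/-- The place attached to a pair. -/
def pairPlace (W : Finset Nat.Primes) (x : Pair M H W) : G.SPlace W M.F :=
  haveI : Fact ((x.1.1 : ℕ).Prime) := ⟨x.1.1.2⟩
  placeOf M W (x.1.1 : ℕ) x.1.2 x.2.1

instance (W : Finset Nat.Primes) : Finite (Pair M H W) := by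
  unfold Pair
  infer_instance

section Reps

variable (W : Finset Nat.Primes)

lemma sPlaceSMul_one (𝔪 : G.SPlace W M.F) : G.sPlaceSMul W ↥H 1 𝔪 = 𝔪 :=
  (G.sPlaceAction W ↥H M.F).one_smul 𝔪

/-- Different pairs give different places (from the uniqueness in `OrbitRepsSpec`). -/
lemma pairPlace_injective (hOR : OrbitRepsSpec) : Function.Injective (pairPlace M H W) := by
  intro x x' hxx
  obtain ⟨x₀, -, huniq⟩ := hOR M H W (pairPlace M H W x)
  have h1 : x = x₀ := huniq x ⟨1, sPlaceSMul_one M H W _⟩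
  have h2 : x' = x₀ := huniq x' ⟨1, by rw [sPlaceSMul_one]; exact hxx.symm⟩
  exact h1.trans h2.symm

/-- The chosen representatives of the `H`-orbits of places above `W`. -/
def repPlaces : Finset (G.SPlace W M.F) := (Set.finite_range (pairPlace M H W)).toFinset

lemma mem_repPlaces {𝔪 : G.SPlace W M.F} :
    𝔪 ∈ repPlaces M H W ↔ ∃ x : Pair M H W, pairPlace M H W x = 𝔪 := by
  unfold repPlaces
  rw [Set.Finite.mem_toFinset]
  rfl

lemma pairPlace_mem (x : Pair M H W) : pairPlace M H W x ∈ repPlaces M H W :=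
  (mem_repPlaces M H W).2 ⟨x, rfl⟩

/-- `repPlaces` is a system of representatives of the `H`-orbits. -/
lemma repPlaces_spec (hOR : OrbitRepsSpec) (𝔪 : G.SPlace W M.F) :
    ∃! r : G.SPlace W M.F, r ∈ repPlaces M H W ∧ ∃ g : ↥H, G.sPlaceSMul W ↥H g r = 𝔪 := by
  obtain ⟨x, ⟨h, hx⟩, huniq⟩ := hOR M H W 𝔪
  refine ⟨pairPlace M H W x, ⟨pairPlace_mem M H W x, h, hx⟩, ?_⟩
  rintro r ⟨hr, g, hg⟩
  obtain ⟨x', rfl⟩ := (mem_repPlaces M H W).1 hr
  rw [huniq x' ⟨g, hg⟩]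

end Reps

section Spread

variable {W : Finset Nat.Primes} {Γ L : Type} [Group Γ] [Field L] [NumberField L]
  [MulSemiringAction Γ L]

open Classical in
/-- The family of local classes which is `u` at `𝔪₁` and `0` elsewhere. -/
def spread (𝔪₁ : G.SPlace W L) (u : groupCohomology (G.LocRep W Γ 𝔪₁) 2) (𝔪 : G.SPlace W L) :
    groupCohomology (G.LocRep W Γ 𝔪) 2 :=
  if h : 𝔪₁ = 𝔪 then h ▸ u else 0

lemma spread_self (𝔪₁ : G.SPlace W L) (u : groupCohomology (G.LocRep W Γ 𝔪₁) 2) :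
    spread 𝔪₁ u 𝔪₁ = u := by
  unfold spread
  rw [dif_pos rfl]

lemma spread_of_ne (𝔪₁ : G.SPlace W L) (u : groupCohomology (G.LocRep W Γ 𝔪₁) 2)
    {𝔪 : G.SPlace W L} (h : 𝔪₁ ≠ 𝔪) : spread 𝔪₁ u 𝔪 = 0 := by
  unfold spread
  rw [dif_neg h]

lemma nsmul_spread (n : ℕ) (𝔪₁ : G.SPlace W L) (u : groupCohomology (G.LocRep W Γ 𝔪₁) 2)
    (𝔪 : G.SPlace W L) : n • spread 𝔪₁ u 𝔪 = spread 𝔪₁ (n • u) 𝔪 := by
  by_cases h : 𝔪₁ = 𝔪
  · subst h
    rw [spread_self, spread_self]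
  · rw [spread_of_ne _ _ h, spread_of_ne _ _ h, smul_zero]

end Spread

section Main

variable (I : LocalInvSystem)

/-- The invariant at the pair `x`. -/
def invPair (x : Pair M H S) (y : H2 (T.resSub (lvlJ M) H)) : AddCircle (1 : ℚ) :=
  haveI : Fact ((x.1.1 : ℕ).Prime) := ⟨x.1.1.2⟩
  I.inv (x.1.1 : ℕ) (locSub (x.1.1 : ℕ) x.2.1 (UH M H)) (cH2 M H S (x.1.1 : ℕ) x.1.2 x.2.1 y)

/-- `σ` as a sum over the pairs. -/
lemma sigma_eq_sum_pairs (y : H2 (T.resSub (lvlJ M) H)) :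
    sigma I M H y = ∑ᶠ x : Pair M H S, invPair M H I x y := by
  rw [finsum_eq_sum_of_fintype, sigma_apply]
  have h1 : ∀ q : S, sigmaAt I M H q y =
      haveI : Fact ((q.1 : ℕ).Prime) := ⟨q.1.2⟩
      ∑ g : {g : GQ // g ∈ reps (UH M H) (q.1 : ℕ)}, invPair M H I ⟨q, g⟩ y := by
    intro q
    haveI : Fact ((q.1 : ℕ).Prime) := ⟨q.1.2⟩
    rw [sigmaAt_apply]
    exact (Finset.sum_coe_sort (reps (UH M H) (q.1 : ℕ)) (fun g =>
      I.inv (q.1 : ℕ) (locSub (q.1 : ℕ) g (UH M H)) (cH2 M H S (q.1 : ℕ) q.2 g y))).symm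
  rw [Finset.sum_congr rfl (fun q _ => h1 q)]
  exact (Fintype.sum_sigma (fun x : Pair M H S => invPair M H I x y)).symm

lemma spread_zero {W : Finset Nat.Primes} {Γ L : Type} [Group Γ] [Field L] [NumberField L]
    [MulSemiringAction Γ L] (𝔪₁ 𝔪 : G.SPlace W L) :
    spread (Γ := Γ) 𝔪₁ (0 : groupCohomology (G.LocRep W Γ 𝔪₁) 2) 𝔪 = 0 := by
  by_cases h : 𝔪₁ = 𝔪
  · subst h
    rw [spread_self]
  · rw [spread_of_ne _ _ h]

/-- A subgroup `Z ≤ H` fixing a place `H`-conjugate to `𝔪₁` has order dividing `|D_{𝔪₁}(H)|`. -/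
lemma card_dvd_card_decomp (Z : Subgroup M.Gal) (hZH : Z ≤ H) (𝔪₀ 𝔪₁ : G.SPlace S M.F)
    (h𝔪₀ : ∀ z ∈ Z, G.sPlaceSMul S M.Gal z 𝔪₀ = 𝔪₀) (h : ↥H)
    (hh : G.sPlaceSMul S ↥H h 𝔪₁ = 𝔪₀) :
    Nat.card Z ∣ Nat.card (G.decomp S ↥H 𝔪₁) := by
  letI act := G.sPlaceAction S ↥H M.F
  have hx₀' : h • 𝔪₁ = 𝔪₀ := hh
  have hz : ∀ z : ↥Z, (⟨z.1, hZH z.2⟩ : ↥H) • 𝔪₀ = 𝔪₀ := fun z => h𝔪₀ z.1 z.2
  have hmem : ∀ z : ↥Z, (MulAut.conj h⁻¹).toMonoidHom (Subgroup.inclusion hZH z) ∈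
      G.decomp S ↥H 𝔪₁ := by
    intro z
    rw [G.mem_decomp_iff]
    show ((MulAut.conj h⁻¹) (Subgroup.inclusion hZH z)) • 𝔪₁ = 𝔪₁
    rw [MulAut.conj_apply, inv_inv, mul_smul, mul_smul, hx₀']
    have : (Subgroup.inclusion hZH z) • 𝔪₀ = 𝔪₀ := hz z
    rw [this, ← hx₀', inv_smul_smul]
  let φ : ↥Z →* ↥(G.decomp S ↥H 𝔪₁) :=
    ((MulAut.conj h⁻¹).toMonoidHom.comp (Subgroup.inclusion hZH)).codRestrict _ hmem
  have hφ : Function.Injective φ := by
    intro a b hab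
    have h1 := congrArg Subtype.val hab
    have h2 : (MulAut.conj h⁻¹) (Subgroup.inclusion hZH a) =
        (MulAut.conj h⁻¹) (Subgroup.inclusion hZH b) := h1
    exact Subgroup.inclusion_injective hZH ((MulAut.conj h⁻¹).injective h2)
  exact Subgroup.card_dvd_of_injective φ hφ

/-- The invariant at a pair vanishes as soon as the intrinsic localisation does. -/
lemma invPair_eq_zero (hLI : LocInjSpec) (x : Pair M H S) (y : H2 (T.resSub (lvlJ M) H))
    (hy : (G.locMapJ S ↥H (pairPlace M H S x) 2).hom y = 0) : invPair M H I x y = 0 := by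
  haveI : Fact ((x.1.1 : ℕ).Prime) := ⟨x.1.1.2⟩
  have h := (hLI M H S (x.1.1 : ℕ) x.1.2 x.2.1 y).2 hy
  exact (congrArg (I.inv (x.1.1 : ℕ) (locSub (x.1.1 : ℕ) x.2.1 (UH M H))) h).trans
    (AddMonoidHom.map_zero _)

/-- Conversely, if the invariant at a pair vanishes then so does the intrinsic localisation. -/
lemma locMapJ_eq_zero_of_invPair (hLI : LocInjSpec) (x : Pair M H S)
    (y : H2 (T.resSub (lvlJ M) H)) (hy : invPair M H I x y = 0) :
    (G.locMapJ S ↥H (pairPlace M H S x) 2).hom y = 0 := by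
  haveI : Fact ((x.1.1 : ℕ).Prime) := ⟨x.1.1.2⟩
  refine (hLI M H S (x.1.1 : ℕ) x.1.2 x.2.1 y).1 ?_
  refine I.inv_injective (x.1.1 : ℕ) _
    (H181.isOpenL_locSub (x.1.1 : ℕ) x.2.1 (isOpenQ_UH M H)) ?_
  exact hy.trans (AddMonoidHom.map_zero _).symm

lemma invPair_nsmul (n : ℕ) (x : Pair M H S) (y : H2 (T.resSub (lvlJ M) H)) :
    invPair M H I x (n • y) = n • invPair M H I x y := by
  haveI : Fact ((x.1.1 : ℕ).Prime) := ⟨x.1.1.2⟩
  have h1 : cH2 M H S (x.1.1 : ℕ) x.1.2 x.2.1 (n • y) =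
      n • cH2 M H S (x.1.1 : ℕ) x.1.2 x.2.1 y := AddMonoidHom.map_nsmul _ _ _
  exact (congrArg (I.inv (x.1.1 : ℕ) (locSub (x.1.1 : ℕ) x.2.1 (UH M H))) h1).trans
    (AddMonoidHom.map_nsmul _ _ _)

/-- Shapiro (surjectivity): a class with prescribed localisation at one pair and trivial
localisations at the others. -/
lemma exists_class_of_spread (hOR : OrbitRepsSpec) (hSh : G.ShapiroJSpec) (x₀ : Pair M H S)
    (u : groupCohomology (G.LocRep S ↥H (pairPlace M H S x₀)) 2) :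
    ∃ y : H2 (T.resSub (lvlJ M) H), ∀ x : Pair M H S,
      (G.locMapJ S ↥H (pairPlace M H S x) 2).hom y =
        spread (pairPlace M H S x₀) u (pairPlace M H S x) := by
  have hbij := hSh S ↥H M.F (repPlaces M H S) (repPlaces_spec M H S hOR) 2
  obtain ⟨y, hy⟩ := hbij.2 (fun r => spread (pairPlace M H S x₀) u r.1)
  exact ⟨y, fun x => congrFun hy ⟨pairPlace M H S x, pairPlace_mem M H S x⟩⟩

/-- Shapiro (injectivity): a class all of whose localisations vanish is zero. -/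
lemma eq_zero_of_forall_locMapJ (hOR : OrbitRepsSpec) (hSh : G.ShapiroJSpec)
    (y : H2 (T.resSub (lvlJ M) H))
    (hy : ∀ x : Pair M H S, (G.locMapJ S ↥H (pairPlace M H S x) 2).hom y = 0) : y = 0 := by
  have hbij := hSh S ↥H M.F (repPlaces M H S) (repPlaces_spec M H S hOR) 2
  apply hbij.1
  funext r
  obtain ⟨x, hx⟩ := (mem_repPlaces M H S).1 r.2
  show (G.locMapJ S ↥H r.1 2).hom y = (G.locMapJ S ↥H r.1 2).hom 0
  rw [map_zero, ← hx]
  exact hy x

lemma locMapJ_nsmul (n : ℕ) (𝔪 : G.SPlace S M.F) (y : H2 (T.resSub (lvlJ M) H)) :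
    (G.locMapJ S ↥H 𝔪 2).hom (n • y) = n • (G.locMapJ S ↥H 𝔪 2).hom y :=
  map_nsmul (G.locMapJ S ↥H 𝔪 2).hom n y

/-- **Assembly of `locClass`**: the field `locClass` of `SemiLocalInv p` for `σ = sigma I`,
from the leaves FR-D, FR-B, FR-C, FR-A and Shapiro's lemma for `J_S`. -/
theorem locClass_of (p : ℕ) (hPP : PrimePlaceSpec) (hOR : OrbitRepsSpec) (hLE : LocExistSpec)
    (hLI : LocInjSpec) (hSh : G.ShapiroJSpec) :
    ∀ {S : Finset Nat.Primes} (M : Level S) (r : Nat.Primes), r ∈ S →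
    ∀ H Z : Subgroup M.Gal, Z ≤ H → IsPGroup p Z → FixesPrimeAbove M r Z →
    ∃ y : groupCohomology (T.resSub (lvlJ M) H) 2,
      Nat.card Z • y = 0 ∧ ∀ n : ℕ, n • sigma I M H y = 0 → Nat.card Z ∣ n := by
  intro S M r hr H Z hZH _ hfix
  obtain ⟨𝔪₀, h𝔪₀⟩ := hPP M r hr Z hfix
  obtain ⟨x₀, ⟨h, hx₀⟩, -⟩ := hOR M H S 𝔪₀
  have hdvd : Nat.card Z ∣ Nat.card (G.decomp S ↥H (pairPlace M H S x₀)) :=
    card_dvd_card_decomp M H Z hZH 𝔪₀ (pairPlace M H S x₀) h𝔪₀ h hx₀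
  haveI : FaithfulSMul ↥H M.F := level_faithfulSMul_subgroup M H
  obtain ⟨u, hu0, huord⟩ := hLE S ↥H M.F (pairPlace M H S x₀) (Nat.card Z) hdvd
  obtain ⟨y, hy'⟩ := exists_class_of_spread M H hOR hSh x₀ u
  refine ⟨y, ?_, ?_⟩
  · apply eq_zero_of_forall_locMapJ M H hOR hSh
    intro x
    rw [locMapJ_nsmul, hy' x, nsmul_spread, hu0, spread_zero]
  · intro n hn
    apply huord
    have hsum : sigma I M H y = invPair M H I x₀ y := by
      rw [sigma_eq_sum_pairs]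
      apply finsum_eq_single
      intro x hx
      apply invPair_eq_zero M H I hLI
      rw [hy' x]
      exact spread_of_ne _ _ (fun hh => hx (pairPlace_injective M H S hOR hh).symm)
    rw [hsum, ← invPair_nsmul] at hn
    have h2 := locMapJ_eq_zero_of_invPair M H I hLI x₀ (n • y) hn
    rw [locMapJ_nsmul, hy' x₀, spread_self] at h2
    exact h2

end Main

end Fermat.Agent.S55.G.Rec.TOW.FR.H481
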