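import Fermat.Agent.S55.G.Rec.Tow.FR.Spec
import Fermat.Agent.S55.G.Rec.H124.Conj

/-!
# S55 / layer G / block REC / adapter TOW / FR : leaf FR-CONJ (`ConjSpec I`)   (helper414)

For classes of the full group (`H = ⊤`) the local invariant of `c_{q,g} z` does not depend on `g`.

Proof.  Write `g' = u g`.  Then `h_{ug} τ = ū (h_g τ) ū⁻¹` and `ev_{q,ug} = ev_{q,g} ∘ ū⁻¹`
(`evAlg_mul_left`), so the cochain of `c_{q,ug} z` is the push along the datum at `g` of the inner
conjugate of the cocycle, which is cohomologous to the cocycle (`Rec.H124.innerConj_eq124`).  The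
two local groups are equal as sets; compare through `lRes` and `I.inv_res` with `relIndex = 1`.
-/

set_option autoImplicit false
set_option linter.unusedSectionVars false
set_option linter.style.haveILetI false

open CategoryTheory groupCohomology
open scoped NumberField

noncomputable section

namespace Fermat.Agent.S55.G.Rec.TOW.FR.H414

open Fermat.Agent.S55 Fermat.Agent.S55.Tow Fermat.Agent.S55.E1.H594 Fermat.Agent.S55.G.Rec
open Fermat.Agent.S55.G.Rec.TOW Fermat.Agent.S55.G.Rec.TOW.FR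
open IsDedekindDomain

local notation "Qb" => AlgebraicClosure ℚ
local notation "GQ" => (AlgebraicClosure ℚ ≃ₐ[ℚ] AlgebraicClosure ℚ)

/-! ## Abstract: a local datum whose cochains are pushes of inner conjugates -/

section Abstract

variable {Γ : Type} [Group Γ] {A : Rep.{0} ℤ Γ} {q : ℕ} [Fact q.Prime]
  {V : Subgroup (PadicAlgCl q ≃ₐ[ℚ_[q]] PadicAlgCl q)}

theorem push₂_add (d : LocDatum A q V) (x y : Γ × Γ → A.V) :
    d.push₂ (x + y) = d.push₂ x + d.push₂ y :=
  funext fun _ => map_add d.φ _ _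

/-- If the cochains of `d'` are the pushes along `d` of the inner conjugates by `u`, then `d'` and
`d` induce the same map on `H²`. -/
theorem map_eq_of_conj (d d' : LocDatum A q V) (u : Γ)
    (h : ∀ c : Γ × Γ → A.V, d'.push₂ c = d.push₂ (H124.innerConj124 A c u)) (z : H2 A) :
    d'.map z = d.map z := by
  obtain ⟨c, rfl⟩ := Bridge.H2π_surjective A z
  rw [LocDatum.map_H2π, LocDatum.map_H2π, ← sub_eq_zero, ← map_sub,
    continuousH2π_eq_zero_iff, mem_levelCoboundaries₂_iff]
  refine ⟨d.push₁ (H124.innerHomotopy124 A (c : Γ × Γ → A.V) u), d.isLevelConstant₁ _, ?_⟩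
  rw [← d.push₂_d₁₂]
  have hconj := H124.innerConj_eq124 A (c : Γ × Γ → A.V) c.2 u
  have h1 : ((d'.cocycles c - d.cocycles c : ↥(levelCocycles₂ (lHom q V) (lModOn q V))) :
      ↥V × ↥V → (lModOn q V).V) = d'.push₂ c - d.push₂ c := rfl
  rw [h1, h, hconj, push₂_add, add_sub_cancel_left]

end Abstract

section

variable {S : Finset Nat.Primes} (M : Level S) (W : Finset Nat.Primes) (q : ℕ)
  [hq : Fact q.Prime] (hqW : (⟨q, hq.out⟩ : Nat.Primes) ∈ W)

/-- Every element of the local Galois group lies in the local group of the full group. -/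
theorem mem_locSub_top (g : GQ) (τ : PadicAlgCl q ≃ₐ[ℚ_[q]] PadicAlgCl q) :
    τ ∈ locSub q g (UH M ⊤) := by
  rw [mem_locSub, mem_UH]
  exact Subgroup.mem_top _

theorem locSub_top_le (g g' : GQ) : locSub q g' (UH M ⊤) ≤ locSub q g (UH M ⊤) :=
  fun τ _ => mem_locSub_top M q g τ

theorem isOpenL_locSub_top (g : GQ) : IsOpenL q (locSub q g (UH M ⊤)) :=
  ⟨⊥, inferInstance, fun τ _ => mem_locSub_top M q g τ⟩

theorem relIndex_locSub_top (g g' : GQ) :
    (locSub q g' (UH M ⊤)).relIndex (locSub q g (UH M ⊤)) = 1 :=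
  Subgroup.relIndex_eq_one.2 (locSub_top_le M q g' g)

/-- the class of `u` in `Gal(M/ℚ)`, as an element of the full subgroup -/
def topMk (u : GQ) : ↥(⊤ : Subgroup M.Gal) := ⟨QuotientGroup.mk u, Subgroup.mem_top _⟩

/-- The key cochain identity: the cochain of `c_{q,ug}` is the push along the datum at `g`
(restricted) of the inner conjugate. -/
theorem push₂_mul_left (u g : GQ)
    (c : ↥(⊤ : Subgroup M.Gal) × ↥(⊤ : Subgroup M.Gal) → (T.resSub (G.JRep M.Gal W M.F) ⊤).V) :
    (cDatum M ⊤ W q hqW (u * g)).push₂ c =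
      ((cDatum M ⊤ W q hqW g).restrict (locSub_top_le M q g (u * g))).push₂
        (H124.innerConj124 (T.resSub (G.JRep M.Gal W M.F) ⊤) c (topMk M u)) := by
  funext ⟨τ₁, τ₂⟩
  have hh : ∀ τ : ↥(locSub q (u * g) (UH M ⊤)),
      (cDatum M ⊤ W q hqW (u * g)).h τ =
        topMk M u * ((cDatum M ⊤ W q hqW g).restrict (locSub_top_le M q g (u * g))).h τ *
          (topMk M u)⁻¹ := by
    intro τ
    apply Subtype.ext
    show (QuotientGroup.mk (u * g * localGaloisToGlobal q τ * (u * g)⁻¹) : M.Gal) =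
      (QuotientGroup.mk u : M.Gal) *
        (QuotientGroup.mk (g * localGaloisToGlobal q τ * g⁻¹) : M.Gal) *
        (QuotientGroup.mk u : M.Gal)⁻¹
    rw [← QuotientGroup.mk_inv, ← QuotientGroup.mk_mul, ← QuotientGroup.mk_mul]
    have e : u * g * localGaloisToGlobal q τ * (u * g)⁻¹ =
        u * (g * localGaloisToGlobal q τ * g⁻¹) * u⁻¹ := by group
    rw [e]
  have hφ : ∀ a : (T.resSub (G.JRep M.Gal W M.F) ⊤).V,
      (cDatum M ⊤ W q hqW (u * g)).φ a =
        ((cDatum M ⊤ W q hqW g).restrict (locSub_top_le M q g (u * g))).φ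
          ((T.resSub (G.JRep M.Gal W M.F) ⊤).ρ (topMk M u)⁻¹ a) := by
    intro a
    apply Additive.toMul.injective
    apply Units.ext
    exact evAlg_mul_left M W q hqW u g _
  show (cDatum M ⊤ W q hqW (u * g)).φ
      (c ((cDatum M ⊤ W q hqW (u * g)).h τ₁, (cDatum M ⊤ W q hqW (u * g)).h τ₂)) = _
  rw [hφ, hh τ₁, hh τ₂]
  rfl

/-- The class of `c_{q,ug} z` is the restriction of the class of `c_{q,g} z`. -/
theorem cH2_mul_left (u g : GQ) (z : H2 (T.resSub (G.JRep M.Gal W M.F) ⊤)) :
    cH2 M ⊤ W q hqW (u * g) z =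
      lRes q (locSub_top_le M q g (u * g)) (cH2 M ⊤ W q hqW g z) := by
  unfold cH2
  rw [← LocDatum.map_restrict]
  exact map_eq_of_conj _ _ (topMk M u) (push₂_mul_left M W q hqW u g) z

end

/-- **FR-CONJ**: for classes of the full group the local invariant of `c_{q,g} z` does not depend
on `g`. -/
theorem conj (I : LocalInvSystem) : ConjSpec I := by
  intro S M W q hq hqW g g' z
  have key : ∀ u g₀ : GQ,
      I.inv q (locSub q (u * g₀) (UH M ⊤)) (cH2 M ⊤ W q hqW (u * g₀) z) =
        I.inv q (locSub q g₀ (UH M ⊤)) (cH2 M ⊤ W q hqW g₀ z) := by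
    intro u g₀
    rw [cH2_mul_left, I.inv_res q _ _ _ (isOpenL_locSub_top M q (u * g₀)),
      relIndex_locSub_top, one_smul]
  have h1 := key (g * g'⁻¹) g'
  have e : g * g'⁻¹ * g' = g := by group
  rw [e] at h1
  exact h1

end Fermat.Agent.S55.G.Rec.TOW.FR.H414
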