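import Fermat.Agent.S55.G.Rec.Tow.FR.Spec
import Fermat.Agent.S55.G.Rec.OrbitNormH934

/-!
# S55 / REC2-TOW / FR, leaf FR-COUNT (helper73): `count : CountSpec`

`∑_{v | q} [K_v : ℚ_q] = [K : ℚ]` for `K = M^H`: orbit counting
(`Rec.H934.orbSigma_bijective`) + `Subgroup.index_comap_of_surjective`.
-/

set_option autoImplicit false

open CategoryTheory

noncomputable section

namespace Fermat.Agent.S55.G.Rec.TOW.FR.H73

open Fermat.Agent.S55 Fermat.Agent.S55.Tow Fermat.Agent.S55.G.Rec Fermat.Agent.S55.G.Rec.TOW.FR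

local notation "GQ" => (AlgebraicClosure ℚ ≃ₐ[ℚ] AlgebraicClosure ℚ)

/-- Orbit counting: the sum of the local indices over double coset representatives is the
global index. -/
theorem sum_index_locSub (q : ℕ) [Fact q.Prime] {U : Subgroup GQ} (hU : IsOpenQ U)
    (R : Finset GQ) (hR : IsDoubleCosetReps U (localGaloisToGlobal q).range R) :
    ∑ g ∈ R, (locSub q g U).index = U.index := by
  classical
  haveI : ∀ r : GQ, Finite ((PadicAlgCl q ≃ₐ[ℚ_[q]] PadicAlgCl q) ⧸ locSub q r U) :=
    fun r => H934.finite_quotient_locSub q hU r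
  have h1 : Nat.card (Σ r : ↥R, (PadicAlgCl q ≃ₐ[ℚ_[q]] PadicAlgCl q) ⧸ locSub q (r : GQ) U) =
      Nat.card (GQ ⧸ U) :=
    Nat.card_congr (Equiv.ofBijective _ (H934.orbSigma_bijective q U R hR))
  rw [Subgroup.index, ← h1, Nat.card_sigma]
  rw [← Finset.sum_coe_sort R (fun g => (locSub q g U).index)]
  rfl

/-- **FR-COUNT.** -/
theorem count : CountSpec := by
  intro S M H q _
  have htop : UH M (⊤ : Subgroup M.Gal) = ⊤ := by
    ext u
    simp [mem_UH]
  have h1 : ∀ g : GQ, (locSub q g (UH M H)).relIndex (locSub q g (UH M ⊤)) =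
      (locSub q g (UH M H)).index := by
    intro g
    have : locSub q g (UH M (⊤ : Subgroup M.Gal)) = ⊤ := by
      rw [htop]
      rfl
    rw [this, Subgroup.relIndex_top_right]
  simp only [h1]
  rw [sum_index_locSub q (isOpenQ_UH M H) _ (reps_spec (isOpenQ_UH M H) q)]
  exact Subgroup.index_comap_of_surjective H (QuotientGroup.mk'_surjective M.U)

end Fermat.Agent.S55.G.Rec.TOW.FR.H73
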