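/-
S55 / layer G / block REC / adapter TOW / leaf FR-OUT (helper724).

`outside I : FR.OutsideSpec I` — vanishing of the local invariants outside `S` of the inflation of
a finite-level class with trivial divisor class; adapter from the cocycle form
`TOW.H724.invAt_eq_zero_of_ord` (`Tow/H724/Unram.lean`) to the FR vocabulary (`FR/Defs.lean`).
-/
import Fermat.Agent.S55.G.Rec.Tow.FR.Spec
import Fermat.Agent.S55.G.Rec.Tow.H724.Unram

set_option autoImplicit false

open CategoryTheory groupCohomology

noncomputable section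

namespace Fermat.Agent.S55.G.Rec.TOW.FR.H724

open Fermat.Agent.S55 Fermat.Agent.S55.Tow Fermat.Agent.S55.E1.H594 Fermat.Agent.S55.G.Rec

/-- **FR-OUT.** -/
theorem outside (I : LocalInvSystem) : OutsideSpec I := by
  intro S M H x hx q hq g
  obtain ⟨c₀, rfl⟩ := Bridge.H2π_surjective _ x
  have h := TOW.H724.invAt_eq_zero_of_ord M H I q hq g c₀ hx ((inflDatum M H).cocycles c₀) rfl
  have e : inflL M H ((H2π (T.resSub (lvlL M) H)).hom c₀) =
      continuousH2π (UH M H).subtype (gModOn (UH M H)) ((inflDatum M H).cocycles c₀) :=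
    GlobDatum.map_H2π (inflDatum M H) c₀
  rw [e]
  exact h

end Fermat.Agent.S55.G.Rec.TOW.FR.H724
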