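/-
S55 / layer G / block REC / adapter TOW / leaf FR, assembly piece `recip` (helper724).

* `cH2_diag` (REC1) : `c_{q,g} (diag_* x) = locBr q g (inflL x)` for `x ∈ H²(H, Mˣ)`;
* `recip_of` : `ReciprocitySpec I p → OutsideSpec I →` the field `recip` of `TOW.SemiLocalInv p`
  for `σ = FR.sigma I`.
-/
import Fermat.Agent.S55.G.Rec.Tow.FR.OutsideH724

set_option autoImplicit false
set_option linter.style.haveILetI false

open CategoryTheory groupCohomology

noncomputable section

namespace Fermat.Agent.S55.G.Rec.TOW.FR.H724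

open Fermat.Agent.S55 Fermat.Agent.S55.Tow Fermat.Agent.S55.E1.H594 Fermat.Agent.S55.G.Rec

variable {S : Finset Nat.Primes} (M : Level S) (H : Subgroup M.Gal)

/-- **REC1**: the localisation of the diagonal image of `x ∈ H²(H, Mˣ)` is the localisation of the
inflation of `x`. -/
theorem cH2_diag (q : ℕ) [hq : Fact q.Prime] (hqS : (⟨q, hq.out⟩ : Nat.Primes) ∈ S) (g : GQ)
    (x : groupCohomology (T.resSub (lvlL M) H) 2) :
    cH2 M H S q hqS g (h2Sub (diagJRepHom S M.Gal M.F) H x) =
      locBr q g (UH M H) (inflL M H x) := by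
  have h1 := LocDatum.map_comp (A := T.resSub (lvlL M) H) (cDatum M H S q hqS g)
    (MonoidHom.id ↥H) ((Rep.resFunctor H.subtype).map (diagJRepHom S M.Gal M.F)) x
  have h2 := GlobDatum.locBr_map (inflDatum M H) q g x
  refine h1.symm.trans (Eq.trans ?_ h2.symm)
  refine congrFun (congrArg DFunLike.coe (LocDatum.map_congr ?_ ?_)) x
  · rfl
  · apply AddMonoidHom.ext
    intro a
    apply Additive.toMul.injective
    apply Units.ext
    exact evAlg_asDiag M S q hqS g _


/-- The inflation of a `p`-primary class is `p`-primary. -/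
lemma inflL_pPrimary (p : ℕ) (x : groupCohomology (T.resSub (lvlL M) H) 2)
    (hx : E1.IsPPrimary p x) : ∃ k : ℕ, p ^ k • inflL M H x = 0 := by
  obtain ⟨k, hk⟩ := hx
  refine ⟨k, ?_⟩
  have := map_nsmul (inflL M H) (p ^ k) x
  rw [← this, hk, map_zero]

/-- **recip** for `σ = FR.sigma I`: reciprocity at finite level. -/
theorem recip_of' (I : LocalInvSystem) (p : ℕ) (hR : ReciprocitySpec I p) (hO : OutsideSpec I)
    (x : groupCohomology (T.resSub (lvlL M) H) 2) (hx : E1.IsPPrimary p x)
    (hord : h2Sub (G.ordRepHom S M.Gal M.F) H x = 0) :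
    sigma I M H (h2Sub (diagJRepHom S M.Gal M.F) H x) = 0 := by
  -- the global reciprocity law for the inflated class
  obtain ⟨-, hsum⟩ := hR (UH M H) (isOpenQ_UH M H) (inflL M H x) (inflL_pPrimary M H p x hx)
    (fun q => haveI : Fact (q : ℕ).Prime := ⟨q.2⟩; reps (UH M H) (q : ℕ))
    (fun q => haveI : Fact (q : ℕ).Prime := ⟨q.2⟩; reps_spec (isOpenQ_UH M H) (q : ℕ))
  -- only the primes of `S` contribute
  have hsupp : (Function.support fun q : Nat.Primes =>
      ∑ r ∈ (haveI : Fact (q : ℕ).Prime := ⟨q.2⟩; reps (UH M H) (q : ℕ)),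
        I.invAt q r (UH M H) (inflL M H x)) ⊆ ↑S := by
    intro q hq
    by_contra hqS
    apply hq
    exact Finset.sum_eq_zero fun r _ => hO M H x hord q hqS r
  rw [finsum_eq_sum_of_support_subset _ hsupp] at hsum
  rw [sigma_apply, ← hsum, ← Finset.sum_coe_sort S]
  refine Finset.sum_congr rfl fun q _ => ?_
  rw [sigmaAt_apply]
  refine Finset.sum_congr rfl fun g _ => ?_
  haveI : Fact ((q.1 : ℕ).Prime) := ⟨q.1.2⟩
  exact congrArg (I.inv (q.1 : ℕ) (locSub (q.1 : ℕ) g (UH M H)))
    (cH2_diag M H (q.1 : ℕ) q.2 g x)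

/-- **recip** for `σ = FR.sigma I`, with FR-OUT plugged in. -/
theorem recip_of (I : LocalInvSystem) (p : ℕ) (hR : ReciprocitySpec I p)
    {S : Finset Nat.Primes} (M : Level S) (H : Subgroup M.Gal)
    (x : groupCohomology (T.resSub (lvlL M) H) 2) (hx : E1.IsPPrimary p x)
    (hord : h2Sub (G.ordRepHom S M.Gal M.F) H x = 0) :
    sigma I M H (h2Sub (diagJRepHom S M.Gal M.F) H x) = 0 :=
  recip_of' M H I p hR (outside I) x hx hord

end Fermat.Agent.S55.G.Rec.TOW.FR.H724
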