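/-
S55 / layer G / block REC / adapter TOW / leaf FR, assembly piece `resIndex` (helper724).

* `cH2_res` (RES1) : `c^H_{q,g} (res_H y) = lRes (c^⊤_{q,g} (res_⊤ y))`, for any `W`;
* `resIndex_of I : ConjSpec I → CountSpec →` the field `resIndex` of `TOW.SemiLocalInv p`
  for `σ = FR.sigma I`  (`I.inv_res` + FR-CONJ + FR-COUNT).
-/
import Fermat.Agent.S55.G.Rec.Tow.FR.RecipH724

set_option autoImplicit false
set_option linter.style.haveILetI false

open CategoryTheory groupCohomology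

noncomputable section

namespace Fermat.Agent.S55.G.Rec.TOW.FR.H724

open Fermat.Agent.S55 Fermat.Agent.S55.Tow Fermat.Agent.S55.E1.H594 Fermat.Agent.S55.G.Rec

variable {S : Finset Nat.Primes} (M : Level S) (H : Subgroup M.Gal)

lemma locSub_mono (q : ℕ) [Fact q.Prime] (g : GQ) {U U' : Subgroup GQ} (h : U' ≤ U) :
    locSub q g U' ≤ locSub q g U := fun _ hτ => h hτ

lemma UH_le_top : UH M H ≤ UH M ⊤ := fun _ _ => Subgroup.mem_top _

/-- **RES1**: localisation commutes with restriction. -/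
theorem cH2_res (W : Finset Nat.Primes) (q : ℕ) [hq : Fact q.Prime]
    (hqW : (⟨q, hq.out⟩ : Nat.Primes) ∈ W) (g : GQ)
    (y : groupCohomology (G.JRep M.Gal W M.F) 2) :
    cH2 M H W q hqW g (res2 (G.JRep M.Gal W M.F) H y) =
      lRes q (locSub_mono q g (UH_le_top M H))
        (cH2 M ⊤ W q hqW g (res2 (G.JRep M.Gal W M.F) ⊤ y)) := by
  have h1 := LocDatum.map_comp (A := G.JRep M.Gal W M.F) (cDatum M H W q hqW g)
    H.subtype (𝟙 (T.resSub (G.JRep M.Gal W M.F) H)) y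
  have h2 := LocDatum.map_comp (A := G.JRep M.Gal W M.F) (cDatum M ⊤ W q hqW g)
    (⊤ : Subgroup M.Gal).subtype (𝟙 (T.resSub (G.JRep M.Gal W M.F) ⊤)) y
  have h3 := LocDatum.map_restrict
    ((cDatum M ⊤ W q hqW g).comp (⊤ : Subgroup M.Gal).subtype
      (𝟙 (T.resSub (G.JRep M.Gal W M.F) ⊤)))
    (locSub_mono q g (UH_le_top M H)) y
  refine h1.symm.trans (Eq.trans ?_ (h3.trans (congrArg _ h2)))
  refine congrFun (congrArg DFunLike.coe (LocDatum.map_congr ?_ ?_)) y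
  · rfl
  · rfl


/-- The local invariant of the restriction, in terms of the invariant over `ℚ` at `g = 1`. -/
lemma inv_cH2_res (I : LocalInvSystem) (hC : ConjSpec I) (q : ℕ) [hq : Fact q.Prime]
    (hqS : (⟨q, hq.out⟩ : Nat.Primes) ∈ S) (g : GQ) (y : groupCohomology (lvlJ M) 2) :
    I.inv q (locSub q g (UH M H)) (cH2 M H S q hqS g (res2 (lvlJ M) H y)) =
      (locSub q g (UH M H)).relIndex (locSub q g (UH M ⊤)) •
        I.inv q (locSub q 1 (UH M ⊤)) (cH2 M ⊤ S q hqS 1 (res2 (lvlJ M) ⊤ y)) := by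
  have e1 := congrArg (I.inv q (locSub q g (UH M H))) (cH2_res M H S q hqS g y)
  have e2 := I.inv_res q _ _ (locSub_mono q g (UH_le_top M H))
    (H181.isOpenL_locSub q g (isOpenQ_UH M H)) (cH2 M ⊤ S q hqS g (res2 (lvlJ M) ⊤ y))
  have e3 := hC M S q hqS g 1 (res2 (lvlJ M) ⊤ y)
  exact e1.trans (e2.trans (congrArg _ e3))

/-- The invariant over `ℚ` at the place `(q, 1)`. -/
def invTop (I : LocalInvSystem) (q : S) (z : H2 (T.resSub (lvlJ M) ⊤)) : AddCircle (1 : ℚ) :=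
  haveI : Fact ((q.1 : ℕ).Prime) := ⟨q.1.2⟩
  I.inv (q.1 : ℕ) (locSub (q.1 : ℕ) 1 (UH M ⊤)) (cH2 M ⊤ S (q.1 : ℕ) q.2 1 z)

/-- The contribution of `q ∈ S` to `σ_H (res_H y)`. -/
lemma sigmaAt_res (I : LocalInvSystem) (hC : ConjSpec I) (hN : CountSpec) (q : S)
    (y : groupCohomology (lvlJ M) 2) :
    sigmaAt I M H q (res2 (lvlJ M) H y) = H.index • invTop M I q (res2 (lvlJ M) ⊤ y) := by
  haveI : Fact ((q.1 : ℕ).Prime) := ⟨q.1.2⟩
  have e1 := sigmaAt_apply I M H q (res2 (lvlJ M) H y)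
  have e2 : ∑ g ∈ reps (UH M H) (q.1 : ℕ),
      I.inv (q.1 : ℕ) (locSub (q.1 : ℕ) g (UH M H))
        (cH2 M H S (q.1 : ℕ) q.2 g (res2 (lvlJ M) H y)) =
      ∑ g ∈ reps (UH M H) (q.1 : ℕ),
        (locSub (q.1 : ℕ) g (UH M H)).relIndex (locSub (q.1 : ℕ) g (UH M ⊤)) •
          invTop M I q (res2 (lvlJ M) ⊤ y) :=
    Finset.sum_congr rfl fun g _ => inv_cH2_res M H I hC (q.1 : ℕ) q.2 g y
  have e3 := (Finset.sum_smul (s := reps (UH M H) (q.1 : ℕ))
    (f := fun g => (locSub (q.1 : ℕ) g (UH M H)).relIndex (locSub (q.1 : ℕ) g (UH M ⊤)))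
    (x := invTop M I q (res2 (lvlJ M) ⊤ y))).symm
  have e4 := hN M H (q.1 : ℕ)
  exact e1.trans (e2.trans (e3.trans (congrArg (· • _) e4)))

lemma sigmaAt_top (I : LocalInvSystem) (hC : ConjSpec I) (hN : CountSpec) (q : S)
    (y : groupCohomology (lvlJ M) 2) :
    sigmaAt I M ⊤ q (res2 (lvlJ M) ⊤ y) = invTop M I q (res2 (lvlJ M) ⊤ y) := by
  have e := sigmaAt_res M ⊤ I hC hN q y
  have h1 : (⊤ : Subgroup M.Gal).index = 1 := Subgroup.index_top
  refine e.trans ?_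
  rw [h1]
  exact one_nsmul _

/-- **resIndex** for `σ = FR.sigma I`: restriction multiplies the semilocal invariant by the
index. -/
theorem resIndex_of (I : LocalInvSystem) (hC : ConjSpec I) (hN : CountSpec)
    (y : groupCohomology (lvlJ M) 2) :
    sigma I M H (res2 (lvlJ M) H y) = H.index • sigma I M ⊤ (res2 (lvlJ M) ⊤ y) := by
  have e1 := sigma_apply I M H (res2 (lvlJ M) H y)
  have e2 := sigma_apply I M ⊤ (res2 (lvlJ M) ⊤ y)
  have e3 : ∑ q : S, sigmaAt I M H q (res2 (lvlJ M) H y) =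
      ∑ q : S, H.index • invTop M I q (res2 (lvlJ M) ⊤ y) :=
    Finset.sum_congr rfl fun q _ => sigmaAt_res M H I hC hN q y
  have e4 : ∑ q : S, sigmaAt I M ⊤ q (res2 (lvlJ M) ⊤ y) =
      ∑ q : S, invTop M I q (res2 (lvlJ M) ⊤ y) :=
    Finset.sum_congr rfl fun q _ => sigmaAt_top M I hC hN q y
  have e5 := Finset.smul_sum (s := (Finset.univ : Finset S))
    (f := fun q : S => invTop M I q (res2 (lvlJ M) ⊤ y)) (r := H.index)
  exact e1.trans (e3.trans (e5.symm.trans (congrArg (H.index • ·) (e2.trans e4).symm)))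

end Fermat.Agent.S55.G.Rec.TOW.FR.H724
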