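/-
S55 / layer G / block REC / adapter TOW / leaf FR — ASSEMBLY (helper724).

`SemiLocalInv p` for `σ := FR.sigma I` from
* `recip`    : `FR.H724.recip_of`    (ReciprocitySpec + FR-OUT + REC1)          — closed here;
* `resIndex` : `FR.H724.resIndex_of` (RES1 + `I.inv_res` + FR-CONJ + FR-COUNT)  — closed here;
* `injAt`, `locClass` : taken as hypotheses `InjAtField I p`, `LocClassField I p`, which are
  VERBATIM the corresponding fields of `TOW.SemiLocalInv p` with `σ := FR.sigma I`.

`finRec_of_fields I p : ReciprocitySpec I p → InjAtField I p → LocClassField I p → FinRecSpec p`.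
-/
import Fermat.Agent.S55.G.Rec.Tow.FR.ResIndexH724
import Fermat.Agent.S55.G.Rec.Tow.FR.ConjH414
import Fermat.Agent.S55.G.Rec.Tow.FR.CountH73

set_option autoImplicit false

open CategoryTheory groupCohomology

noncomputable section

namespace Fermat.Agent.S55.G.Rec.TOW.FR.H724

open Fermat.Agent.S55 Fermat.Agent.S55.Tow Fermat.Agent.S55.E1.H594 Fermat.Agent.S55.G.Rec

/-- The field `injAt` of `TOW.SemiLocalInv p` for `σ := FR.sigma I`. -/
def InjAtField (I : LocalInvSystem) (p : ℕ) : Prop :=
  ∀ {S : Finset Nat.Primes} (M : Level S) (r : Nat.Primes)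
    (y : groupCohomology (lvlJ M) 2), E1.IsPPrimary p y → IsAt S M.Gal M.F r y →
    sigma I M ⊤ (res2 (lvlJ M) ⊤ y) = 0 → y = 0

/-- The field `locClass` of `TOW.SemiLocalInv p` for `σ := FR.sigma I`. -/
def LocClassField (I : LocalInvSystem) (p : ℕ) : Prop :=
  ∀ {S : Finset Nat.Primes} (M : Level S) (r : Nat.Primes), r ∈ S →
    ∀ H Z : Subgroup M.Gal, Z ≤ H → IsPGroup p Z → FixesPrimeAbove M r Z →
    ∃ y : groupCohomology (T.resSub (lvlJ M) H) 2,
      Nat.card Z • y = 0 ∧ ∀ n : ℕ, n • sigma I M H y = 0 → Nat.card Z ∣ n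

/-- **resIndex**, closed (FR-CONJ `H414.conj`, FR-COUNT `H73.count`). -/
theorem resIndex (I : LocalInvSystem) {S : Finset Nat.Primes} (M : Level S) (H : Subgroup M.Gal)
    (y : groupCohomology (lvlJ M) 2) :
    sigma I M H (res2 (lvlJ M) H y) = H.index • sigma I M ⊤ (res2 (lvlJ M) ⊤ y) :=
  resIndex_of M H I (FR.H414.conj I) FR.H73.count y

/-- The semilocal invariant system `σ := FR.sigma I`. -/
def semiLocalInv_of (I : LocalInvSystem) (p : ℕ) (hR : ReciprocitySpec I p)
    (hInj : InjAtField I p) (hLoc : LocClassField I p) : SemiLocalInv p where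
  σ M H := sigma I M H
  recip M H x hx hord := recip_of I p hR M H x hx hord
  resIndex M H y := resIndex I M H y
  injAt M r y hy hat h0 := hInj M r y hy hat h0
  locClass M r hr H Z hZH hZ hfix := hLoc M r hr H Z hZH hZ hfix

/-- **FR assembly**: `FinRecSpec p` from reciprocity and the two fields `injAt`, `locClass`. -/
theorem finRec_of_fields (I : LocalInvSystem) (p : ℕ) (hR : ReciprocitySpec I p)
    (hInj : InjAtField I p) (hLoc : LocClassField I p) : FinRecSpec p :=
  ⟨semiLocalInv_of I p hR hInj hLoc⟩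

end Fermat.Agent.S55.G.Rec.TOW.FR.H724
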