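import Fermat.Agent.S55.G.Rec.Tow.FR.Spec
import Fermat.Agent.S55.G.JGlueH604
import Fermat.Agent.S55.L.H715.OuterClosed
import Fermat.Agent.S55.L.H715.Transport

/-!
# S55 / G / REC / TOW / FR, leaf FR-C (`LocExistSpec`), helper715

`H²(D_𝔪, L_𝔪ˣ)` contains an element of exact order `n` for every divisor `n` of `|D_𝔪|`:
`L_𝔪` is Galois over the fixed field `F` of `D_𝔪` with group `D_𝔪`, `F` is a finite extension of
`ℚ_q`, hence a local field, and `H²(Gal(L_𝔪/F), L_𝔪ˣ) ≅ ℤ/[L_𝔪 : F]` by the closed L-layer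
(`L.Closed.h2Cyclic`); transport along `D_𝔪 ≃ Gal(L_𝔪/F)`.
-/

set_option autoImplicit false
set_option linter.unusedSectionVars false
set_option linter.style.haveILetI false

open scoped NumberField TensorProduct
open IsDedekindDomain CategoryTheory groupCohomology
open Fermat.Agent.S55.G

noncomputable section

namespace Fermat.Agent.S55.G.Rec.TOW.FR.H715

/-- A group isomorphic to `ℤ/m` contains an element of exact order `n` for every `n ∣ m`. -/
theorem exists_exact_order_of_equiv_zmod {M : Type} [AddCommGroup M] (m n : ℕ) (hm : 0 < m)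
    (hn : n ∣ m) (e : M ≃+ ZMod m) :
    ∃ u : M, n • u = 0 ∧ ∀ k : ℕ, k • u = 0 → n ∣ k := by
  obtain ⟨d, rfl⟩ := hn
  have hd : 0 < d := Nat.pos_of_mul_pos_left hm
  refine ⟨e.symm ((d : ℕ) : ZMod (n * d)), ?_, fun k hk => ?_⟩
  · rw [← map_nsmul, nsmul_eq_mul, ← Nat.cast_mul, ZMod.natCast_self, map_zero]
  · have h1 : e (k • e.symm ((d : ℕ) : ZMod (n * d))) = 0 := by rw [hk, map_zero]
    rw [map_nsmul, AddEquiv.apply_symm_apply, nsmul_eq_mul, ← Nat.cast_mul,
      ZMod.natCast_eq_zero_iff] at h1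
    exact Nat.dvd_of_mul_dvd_mul_right hd h1

section Abstract

variable {D E : Type} [Group D] [Finite D] [Field E]

/-- A finite group `D` acting faithfully (via `φ`) on a finite extension `E` of `ℚ_q`, fixing
`ℚ_q`: `H²(D, Eˣ) ≅ ℤ/|D|`. -/
theorem nonempty_H2_unitsRepr_equiv (φ : D →* (E ≃+* E)) (hφ : Function.Injective φ)
    (q : ℕ) [Fact q.Prime] (ι : ℚ_[q] →+* E)
    (hfin : letI := ι.toAlgebra; Module.Finite ℚ_[q] E)
    (hι : ∀ (d : D) (x : ℚ_[q]), φ d (ι x) = ι x) :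
    Nonempty (groupCohomology (Rep.of (unitsRepr D φ)) 2 ≃+ ZMod (Nat.card D)) := by
  classical
  letI : Fintype D := Fintype.ofFinite D
  letI : MulSemiringAction D E := MulSemiringAction.compHom E φ
  have hsmul : ∀ (d : D) (x : E), d • x = φ d x := fun _ _ => rfl
  haveI : FaithfulSMul D E := ⟨fun {d₁ d₂} h => hφ (RingEquiv.ext fun x => by
    rw [← hsmul, ← hsmul]; exact h x)⟩
  let F : Subfield E := FixedPoints.subfield D E
  let ιF : ℚ_[q] →+* F := ι.codRestrict F (fun x d => by rw [hsmul]; exact hι d x)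
  letI : Algebra ℚ_[q] E := ι.toAlgebra
  letI : Algebra ℚ_[q] F := ιF.toAlgebra
  haveI : IsScalarTower ℚ_[q] F E := IsScalarTower.of_algebraMap_eq (fun _ => rfl)
  haveI : Module.Finite ℚ_[q] E := hfin
  haveI : FiniteDimensional ℚ_[q] F := FiniteDimensional.left ℚ_[q] F E
  haveI : Fermat.Agent.S55.L.IsLocalFld F := PL0H713.isLocalFld_of_finite_padic q F
  let ψ : D ≃* (E ≃ₐ[F] E) := FixedPoints.toAlgAutMulEquiv D E
  obtain ⟨e0⟩ := Fermat.Agent.S55.L.Closed.h2Cyclic F E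
  have hcardeq : Nat.card (E ≃ₐ[F] E) = Nat.card D := (Nat.card_congr ψ.toEquiv).symm
  have hfr : Module.finrank F E = Nat.card D := by
    rw [← IsGalois.card_aut_eq_finrank, hcardeq]
  let iso : groupCohomology (Rep.of (unitsRepr D φ)) 2 ≅
      groupCohomology (Fermat.Agent.S55.L.unitsRep F E) 2 :=
    groupCohomology.mapIso (A := Fermat.Agent.S55.L.unitsRep F E)
      (B := Rep.of (unitsRepr D φ)) ψ
      (Fermat.Agent.S55.L.H715.linOfAdd715 (A := Rep.of (unitsRepr D φ))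
        (B := Fermat.Agent.S55.L.unitsRep F E) (AddEquiv.refl (Additive Eˣ)))
      (fun g => DFunLike.ext _ _ (fun x => by
        apply Additive.toMul.injective
        apply Units.ext
        rfl)) 2
  exact ⟨(iso.toLinearEquiv.toAddEquiv.trans e0).trans (ZMod.ringEquivCongr hfr).toAddEquiv⟩

end Abstract

/-- **FR-C** (`LocExistSpec`): local classes of every exact order dividing `|D_𝔪|`. -/
theorem locExist : LocExistSpec := by
  intro W Γ L _ _ _ _ _ _ 𝔪 n hn
  haveI : Fact (Nat.Prime ((PL0H713.primeOf W L 𝔪).1 : ℕ)) := ⟨(PL0H713.primeOf W L 𝔪).1.2⟩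
  obtain ⟨e⟩ := nonempty_H2_unitsRepr_equiv (locAut W Γ 𝔪) (H953.locAut_injective W Γ 𝔪)
    ((PL0H713.primeOf W L 𝔪).1 : ℕ) (PL0H713.ofQq W L 𝔪) (PL0H713.finite_locField W L 𝔪)
    (JGlueH604.locAut_ofQq W Γ 𝔪)
  exact exists_exact_order_of_equiv_zmod (Nat.card (decomp W Γ 𝔪)) n Nat.card_pos hn e

end Fermat.Agent.S55.G.Rec.TOW.FR.H715
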