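import Fermat.Agent.S55.G.Rec.Tow.FR.Spec
import Fermat.Agent.S55.G.Rec.Tow.H894.Ev

/-!
# S55 / REC2-TOW / FR, leaf FR-A : `locInj : LocInjSpec`  (helper894)

`c_{q,g} z = 0 ↔ locMapJ (placeOf q g) z = 0` for `z ∈ H²(H, J_W(M))`.

* `placeOf M W q hqW g` is the place `H894.evPlace M.F q hqW g` (`placeOf_eq_evPlace`), which has
  the embedded model `H894.evEmb` with `φ ∘ mk = ev_{q,g}` (`exists_placeEmb`);
* `towLink` : the `H894.LocLink` between `V = locSub q g (UH M H)` and the group `H`
  (`ρ = piH ∘ locHom`);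
* the two directions are `H894.LocLink.locMapJ_eq_zero` (Hilbert 90 + inflation is injective,
  port of helper473's `HP.localGlue`) and `H894.LocLink.evCochain_mem_levelCoboundaries₂`.
-/

set_option autoImplicit false
set_option linter.unusedSectionVars false
set_option linter.style.haveILetI false

open CategoryTheory groupCohomology
open scoped TensorProduct

noncomputable section

namespace Fermat.Agent.S55.G.Rec.TOW.FR.H894

open Fermat.Agent.S55 Fermat.Agent.S55.Tow Fermat.Agent.S55.E1.H594 Fermat.Agent.S55.G.Rec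
open Fermat.Agent.S55.G

local notation "Qb" => AlgebraicClosure ℚ
local notation "GQ" => (AlgebraicClosure ℚ ≃ₐ[ℚ] AlgebraicClosure ℚ)

section

variable {S : Finset Nat.Primes} (M : Level S) (H : Subgroup M.Gal) (W : Finset Nat.Primes)
  (q : ℕ) [hq : Fact q.Prime] (hqW : (⟨q, hq.out⟩ : Nat.Primes) ∈ W) (g : GQ)

lemma evAlg_eq_evHom :
    ((evAlg M W q hqW g : G.AS W M.F →ₐ[ℚ] PadicAlgCl q) : G.AS W M.F →+* PadicAlgCl q) =
      TOW.H894.evHom M.F q hqW g :=
  TOW.H894.eq_evHom_of_tmul M.F q hqW g _ (fun x y => evAlg_tmul M W q hqW g x y)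

lemma evAlg_apply_eq_evHom (a : G.AS W M.F) :
    evAlg M W q hqW g a = TOW.H894.evHom M.F q hqW g a :=
  congrArg (fun f : G.AS W M.F →+* PadicAlgCl q => f a) (evAlg_eq_evHom M W q hqW g)

lemma placeOf_eq_evPlace : placeOf M W q hqW g = TOW.H894.evPlace M.F q hqW g := by
  refine MaximalSpectrum.ext (Ideal.ext fun a => ?_)
  rw [mem_placeOf, TOW.H894.mem_evPlace_iff, evAlg_apply_eq_evHom]

/-- The embedded model of the place `placeOf M W q hqW g`. -/
lemma exists_placeEmb :
    ∃ P : HP.PlaceEmb W M.F (placeOf M W q hqW g) q, P.g = g ∧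
      ∀ a : G.AS W M.F,
        P.φ (LocField.mk W (placeOf M W q hqW g) a) = evAlg M W q hqW g a := by
  rw [placeOf_eq_evPlace]
  exact ⟨TOW.H894.evEmb M.F q hqW g, rfl, fun a => (evAlg_apply_eq_evHom M W q hqW g a).symm⟩

variable {M W q g} in
/-- The link between `V = locSub q g (UH M H)` and the group `H`. -/
def towLink {𝔪 : SPlace W M.F} (P : HP.PlaceEmb W M.F 𝔪 q) (hPg : P.g = g) :
    TOW.H894.LocLink P ↥H (locSub q g (UH M H)) where
  ρ := (piH M H).comp (locHom q g (UH M H))
  smul_coe τ x := by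
    rw [hPg]
    exact level_mk_smul M (g * localGaloisToGlobal q τ * g⁻¹) x
  full τ d hd := by
    rw [hPg] at hd
    have h1 : (QuotientGroup.mk (g * localGaloisToGlobal q τ * g⁻¹) : M.Gal) = (d : M.Gal) := by
      apply (level_faithfulSMul M).eq_of_smul_eq_smul
      intro x
      apply Subtype.ext
      rw [level_mk_smul]
      exact hd x
    have hmem : τ ∈ locSub q g (UH M H) := by
      rw [mem_locSub, mem_UH, h1]
      exact d.2
    exact ⟨hmem, Subtype.ext h1⟩

end

/-- **FR-A.**  The localisation `c_{q,g}` vanishes on a class iff the intrinsic localisation at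
the place `placeOf q g` does. -/
theorem locInj : LocInjSpec := by
  intro S M H W q hq hqW g z
  obtain ⟨P, hPg, hPφ⟩ := exists_placeEmb M W q hqW g
  obtain ⟨yc, rfl⟩ := Bridge.H2π_surjective _ z
  have hpush : (towLink H P hPg).evCochain
      (yc : ↥H × ↥H → Additive (G.AS W M.F)ˣ) = (cDatum M H W q hqW g).push₂ yc := by
    funext p
    apply Additive.toMul.injective
    apply Units.ext
    exact hPφ _
  rw [cH2, LocDatum.map_H2π, continuousH2π_eq_zero_iff, LocDatum.coe_cocycles, ← hpush]
  constructor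
  · intro h
    exact (towLink H P hPg).locMapJ_eq_zero yc h
  · intro h
    exact (towLink H P hPg).evCochain_mem_levelCoboundaries₂ yc h

end Fermat.Agent.S55.G.Rec.TOW.FR.H894
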