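import Fermat.Agent.S55.G.Rec.Tow.FR.Spec
import Fermat.Agent.S55.G.LocH897.Conc

/-!
# S55 / REC2-TOW / FR, leaf FR-B (helper897): places = double cosets

`orbitReps : OrbitRepsSpec` : every place `𝔪` of `M` above `W` is `H`-conjugate to
`placeOf q g` for a unique pair `(q, g)`, `q ∈ W`, `g ∈ reps (UH M H) q`.

* `evAlg_mul_loc`, `placeOf_mul_loc` : `placeOf q (g · loc τ) = placeOf q g`;
* `placeOf_mul_left` : `placeOf q (u g) = ū • placeOf q g`;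
* `primeOf_placeOf` : `placeOf q g` lies over `q`;
* `exists_placeOf_eq` : every place is some `placeOf q g` (transitivity of the Galois action);
* `exists_loc_of_placeOf_eq` : `placeOf q a = placeOf q b ⇒ b ∈ M.U · a · D_q`.
-/

set_option autoImplicit false
set_option linter.unusedSectionVars false
set_option linter.style.haveILetI false

open CategoryTheory groupCohomology
open scoped TensorProduct

noncomputable section

namespace Fermat.Agent.S55.G.Rec.TOW.FR.H897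

open Fermat.Agent.S55 Fermat.Agent.S55.Tow Fermat.Agent.S55.E1.H594 Fermat.Agent.S55.G.Rec
open Fermat.Agent.S55.G Fermat.Agent.S55.G.PL0H713 Fermat.Agent.S55.G.LocH897

local notation "Qb" => AlgebraicClosure ℚ
local notation "GQ" => (AlgebraicClosure ℚ ≃ₐ[ℚ] AlgebraicClosure ℚ)

section Basic

variable {S : Finset Nat.Primes} (M : Level S) (W : Finset Nat.Primes) (q : ℕ)
  [hq : Fact q.Prime] (hqW : (⟨q, hq.out⟩ : Nat.Primes) ∈ W)

/-- `ev_{q, g·loc τ} = τ⁻¹ ∘ ev_{q,g}`. -/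
lemma evAlg_mul_loc (g : GQ) (τ : PadicAlgCl q ≃ₐ[ℚ_[q]] PadicAlgCl q) (a : G.AS W M.F) :
    evAlg M W q hqW (g * localGaloisToGlobal q τ) a = τ⁻¹ (evAlg M W q hqW g a) := by
  induction a using TensorProduct.induction_on with
  | zero => simp
  | add a b ha hb => simp only [map_add, ha, hb]
  | tmul x y =>
    rw [evAlg_tmul, evAlg_tmul, map_mul, AlgEquiv.commutes]
    congr 1
    rw [← padicEmbedding_localGaloisToGlobal]
    congr 1
    simp [AlgEquiv.mul_apply]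

lemma placeOf_mul_loc (g : GQ) (τ : PadicAlgCl q ≃ₐ[ℚ_[q]] PadicAlgCl q) :
    placeOf M W q hqW (g * localGaloisToGlobal q τ) = placeOf M W q hqW g := by
  refine MaximalSpectrum.ext (Ideal.ext fun a => ?_)
  rw [mem_placeOf, mem_placeOf, evAlg_mul_loc]
  exact (τ⁻¹ : PadicAlgCl q ≃ₐ[ℚ_[q]] PadicAlgCl q).map_eq_zero_iff

lemma placeOf_mul_left (u g : GQ) :
    placeOf M W q hqW (u * g) =
      G.sPlaceSMul W M.Gal (QuotientGroup.mk u : M.Gal) (placeOf M W q hqW g) := by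
  refine MaximalSpectrum.ext (Ideal.ext fun a => ?_)
  rw [mem_placeOf, G.mem_sPlaceSMul_iff, mem_placeOf, evAlg_mul_left]
  rfl

lemma evAlg_one_tmul_single (g : GQ) :
    evAlg M W q hqW g ((1 : M.F) ⊗ₜ[ℚ] single W ⟨⟨q, hq.out⟩, hqW⟩ 1) = 1 := by
  rw [evAlg_tmul]
  have h1 : (single W ⟨⟨q, hq.out⟩, hqW⟩ (1 : Qq ⟨q, hq.out⟩)) ⟨⟨q, hq.out⟩, hqW⟩ = 1 :=
    single_apply_same W ⟨⟨q, hq.out⟩, hqW⟩ 1
  rw [h1]
  simp

/-- The place `placeOf q g` lies over `q`. -/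
theorem primeOf_placeOf (g : GQ) :
    primeOf W M.F (placeOf M W q hqW g) = ⟨⟨q, hq.out⟩, hqW⟩ := by
  by_contra hne
  have h1 : LocField.mk W (placeOf M W q hqW g)
      ((1 : M.F) ⊗ₜ[ℚ] single W ⟨⟨q, hq.out⟩, hqW⟩ 1) = 0 := by
    rw [mk_one_tmul, single_apply_ne W _ _ hne, map_zero]
  rw [LocField.mk_eq_zero_iff, mem_placeOf, evAlg_one_tmul_single] at h1
  exact one_ne_zero h1

/-- Every place over `q` is `placeOf q g` for some `g ∈ G_ℚ`. -/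
theorem exists_placeOf_eq (𝔪 : G.SPlace W M.F)
    (h𝔪 : primeOf W M.F 𝔪 = ⟨⟨q, hq.out⟩, hqW⟩) :
    ∃ g : GQ, placeOf M W q hqW g = 𝔪 := by
  obtain ⟨γ, hγ⟩ := exists_sPlaceSMul_eq W M.Gal M.F (level_hfix M)
    (placeOf M W q hqW 1) 𝔪 ((primeOf_placeOf M W q hqW 1).trans h𝔪.symm)
  obtain ⟨u, rfl⟩ := QuotientGroup.mk_surjective γ
  exact ⟨u * 1, (placeOf_mul_left M W q hqW u 1).trans hγ⟩

/-! ### The stabiliser of `placeOf q 1` -/

/-- The level `M` as a level of `S ∪ W`. -/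
def lvlUnion : Level (S ∪ W) := Level.ofLE Finset.subset_union_left M

/-- `q` as an element of `S ∪ W`. -/
def qUnion : (S ∪ W : Finset Nat.Primes) := ⟨⟨q, hq.out⟩, Finset.mem_union_right S hqW⟩

/-- The J-bridge evaluation `M ⊗ ℚ_{S ∪ W} → ℚ̄_q` (typed on `M.F`). -/
def evUn : G.AS (S ∪ W) M.F →ₐ[ℚ] PadicAlgCl q :=
  evQ (lvlUnion M W) (qUnion (S := S) W q hqW)

lemma evUn_tmul (x : M.F) (y : G.QS (S ∪ W)) :
    evUn M W q hqW (x ⊗ₜ[ℚ] y) = padicEmbedding q (x : Qb) *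
      algebraMap ℚ_[q] (PadicAlgCl q) (y ⟨⟨q, hq.out⟩, Finset.mem_union_right S hqW⟩) :=
  evQ_tmul (lvlUnion M W) (qUnion (S := S) W q hqW) x y

/-- The evaluation `ev_{q,1}` on `M ⊗ ℚ_W` and the J-bridge evaluation on `M ⊗ ℚ_{S ∪ W}`. -/
lemma evAlg_asRes_eq_evUn (a : G.AS (S ∪ W) M.F) :
    evAlg M W q hqW 1 (G.asRes (Finset.subset_union_right : W ⊆ S ∪ W) M.F a) =
      evUn M W q hqW a := by
  induction a using TensorProduct.induction_on with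
  | zero => simp
  | add a b ha hb => simp only [map_add, ha, hb]
  | tmul x y =>
    rw [G.asRes_tmul, evAlg_tmul, evUn_tmul]
    simp only [inv_one, AlgEquiv.one_apply]
    rfl

/-- An element of `Gal(M/ℚ)` fixing the place `placeOf q 1` comes from the local Galois group. -/
theorem exists_loc_of_stab (s : M.Gal)
    (hs : G.sPlaceSMul W M.Gal s (placeOf M W q hqW 1) = placeOf M W q hqW 1) :
    ∃ τ : PadicAlgCl q ≃ₐ[ℚ_[q]] PadicAlgCl q,
      (QuotientGroup.mk (localGaloisToGlobal q τ) : M.Gal) = s := by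
  have h1 : ∀ a : G.AS W M.F, evAlg M W q hqW 1 (G.asAut W M.Gal M.F s a) = 0 ↔
      evAlg M W q hqW 1 a = 0 := by
    intro a
    have h2 := G.mem_sPlaceSMul_iff W M.Gal s (placeOf M W q hqW 1) (G.asAut W M.Gal M.F s a)
    rw [hs, mem_placeOf, mem_placeOf] at h2
    rw [h2]
    have h3 : G.asAut W M.Gal M.F s⁻¹ (G.asAut W M.Gal M.F s a) = a := by
      rw [map_inv]
      exact (G.asAut W M.Gal M.F s).symm_apply_apply a
    rw [h3]
  have h4 : ∀ x : G.AS (S ∪ W) M.F,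
      evUn M W q hqW (G.asAut (S ∪ W) M.Gal M.F s x) = 0 ↔ evUn M W q hqW x = 0 := by
    intro x
    rw [← evAlg_asRes_eq_evUn, ← evAlg_asRes_eq_evUn,
      G.asRes_asAut (Finset.subset_union_right : W ⊆ S ∪ W) M.F M.Gal s x]
    exact h1 _
  obtain ⟨τ, hτ⟩ := exists_locGal_eq (lvlUnion M W) (qUnion (S := S) W q hqW) s
    (fun x => h4 x)
  exact ⟨τ, hτ⟩

/-- Two elements of `G_ℚ` inducing the same place over `q` lie in the same double coset
`M.U \ G_ℚ / D_q`. -/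
theorem exists_of_placeOf_eq (a b : GQ) (h : placeOf M W q hqW a = placeOf M W q hqW b) :
    ∃ m ∈ M.U, ∃ τ : PadicAlgCl q ≃ₐ[ℚ_[q]] PadicAlgCl q,
      b = m * a * localGaloisToGlobal q τ := by
  have h1 : placeOf M W q hqW (a⁻¹ * b) = placeOf M W q hqW 1 := by
    rw [placeOf_mul_left, ← h, ← placeOf_mul_left, inv_mul_cancel]
  have h2 : G.sPlaceSMul W M.Gal (QuotientGroup.mk (a⁻¹ * b) : M.Gal) (placeOf M W q hqW 1) =
      placeOf M W q hqW 1 := by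
    rw [← placeOf_mul_left, mul_one, h1]
  obtain ⟨τ, hτ⟩ := exists_loc_of_stab M W q hqW _ h2
  have h3 : (localGaloisToGlobal q τ)⁻¹ * (a⁻¹ * b) ∈ M.U := by
    rw [← QuotientGroup.eq]
    exact hτ
  refine ⟨(a * localGaloisToGlobal q τ) * ((localGaloisToGlobal q τ)⁻¹ * (a⁻¹ * b)) *
    (a * localGaloisToGlobal q τ)⁻¹, ?_, τ, ?_⟩
  · exact M.normalU.conj_mem _ h3 _
  · group

end Basic

/-! ### The action of a subgroup -/

section Sub

variable {S : Finset Nat.Primes} (M : Level S) (H : Subgroup M.Gal) (W : Finset Nat.Primes)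

lemma sPlaceSMul_sub (h : ↥H) (𝔪 : G.SPlace W M.F) :
    G.sPlaceSMul W ↥H h 𝔪 = G.sPlaceSMul W M.Gal (h : M.Gal) 𝔪 := rfl

end Sub

section Main

variable {S : Finset Nat.Primes} (M : Level S) (H : Subgroup M.Gal) (W : Finset Nat.Primes)
  (q : ℕ) [hq : Fact q.Prime] (hqW : (⟨q, hq.out⟩ : Nat.Primes) ∈ W)

/-- A place conjugate to `placeOf q g` lies over `q`. -/
lemma primeOf_eq_of_smul (g : GQ) (h : ↥H) (𝔪 : G.SPlace W M.F)
    (hh : G.sPlaceSMul W ↥H h (placeOf M W q hqW g) = 𝔪) :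
    primeOf W M.F 𝔪 = ⟨⟨q, hq.out⟩, hqW⟩ := by
  rw [← hh, primeOf_sPlaceSMul, primeOf_placeOf]

/-- Existence and uniqueness of the representative over a fixed prime `q`. -/
theorem exists_rep (𝔪 : G.SPlace W M.F) (h𝔪 : primeOf W M.F 𝔪 = ⟨⟨q, hq.out⟩, hqW⟩) :
    ∃ r ∈ reps (UH M H) q,
      (∃ h : ↥H, G.sPlaceSMul W ↥H h (placeOf M W q hqW r) = 𝔪) ∧
      ∀ g' ∈ reps (UH M H) q,
        (∃ h : ↥H, G.sPlaceSMul W ↥H h (placeOf M W q hqW g') = 𝔪) → g' = r := by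
  obtain ⟨g₀, hg₀⟩ := exists_placeOf_eq M W q hqW 𝔪 h𝔪
  obtain ⟨r, ⟨hrR, u, hu, d, hd, hg⟩, hruniq⟩ := reps_spec (isOpenQ_UH M H) q g₀
  obtain ⟨τ, rfl⟩ := hd
  refine ⟨r, hrR, ⟨⟨QuotientGroup.mk u, hu⟩, ?_⟩, ?_⟩
  · show G.sPlaceSMul W M.Gal (QuotientGroup.mk u) (placeOf M W q hqW r) = 𝔪
    rw [← placeOf_mul_left, ← placeOf_mul_loc M W q hqW (u * r) τ, ← hg, hg₀]
  · rintro g' hg' ⟨h', hh'⟩
    obtain ⟨⟨u', hu'⟩, rfl⟩ := piH_surjective M H h'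
    have h3 : placeOf M W q hqW (u' * g') = placeOf M W q hqW g₀ := by
      rw [placeOf_mul_left, hg₀]
      exact hh'
    obtain ⟨m, hm, τ', hτ'⟩ := exists_of_placeOf_eq M W q hqW _ _ h3
    apply hruniq g'
    refine ⟨hg', m * u', (UH M H).mul_mem (U_le_UH M H hm) hu', _, ⟨τ', rfl⟩, ?_⟩
    rw [hτ']
    group

end Main

/-- **FR-B.**  Every place of `M` above `W` is `H`-conjugate to `placeOf q g` for a unique pair
`(q, g)`, `q ∈ W`, `g ∈ reps (UH M H) q`. -/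
theorem orbitReps : OrbitRepsSpec := by
  intro S M H W 𝔪
  haveI hF : Fact (((primeOf W M.F 𝔪).1 : ℕ).Prime) := ⟨(primeOf W M.F 𝔪).1.2⟩
  obtain ⟨r, hrR, hex, huniq⟩ :=
    exists_rep M H W ((primeOf W M.F 𝔪).1 : ℕ) (primeOf W M.F 𝔪).2 𝔪 rfl
  refine ⟨⟨primeOf W M.F 𝔪, ⟨r, hrR⟩⟩, hex, ?_⟩
  rintro ⟨q', g', hg'⟩ ⟨h', hh'⟩
  have hq : primeOf W M.F 𝔪 = q' :=
    haveI : Fact ((q'.1 : ℕ).Prime) := ⟨q'.1.2⟩
    primeOf_eq_of_smul M H W (q'.1 : ℕ) q'.2 g' h' 𝔪 hh'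
  subst hq
  have h4 : g' = r := huniq g' hg' ⟨h', hh'⟩
  subst h4
  rfl

end Fermat.Agent.S55.G.Rec.TOW.FR.H897
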