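/-
S55 / layer G / block REC / adapter TOW / leaf FR-D (subtask 661), helper233.

`primePlace : FR.PrimePlaceSpec` (exact type of `FR/Spec.lean`), unconditional:
a subgroup `Z ≤ Gal(M/ℚ)` fixing a prime of `𝒪_M` above `r ∈ S` fixes a place of `M ⊗ ℚ_S`.
From the equivariant bijection `SPlace S M ≃ PrimeIn S M` (`G.PlacePrimeSpec`, helper173).
-/
import Fermat.Agent.S55.G.Rec.Tow.FR.Spec
import Fermat.Agent.S55.G.PL1H173.Main

set_option autoImplicit false
set_option linter.unusedSectionVars false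
set_option linter.style.haveILetI false

open scoped NumberField
open IsDedekindDomain

noncomputable section

namespace Fermat.Agent.S55.G.Rec.TOW.FR.H233

open Fermat.Agent.S55 Fermat.Agent.S55.Tow Fermat.Agent.S55.E1.H594 Fermat.Agent.S55.G.Rec

/-- **FR-D** from `G.PlacePrimeSpec`. -/
theorem primePlace_of (hPP : G.PlacePrimeSpec) : PrimePlaceSpec := by
  intro S M r hr Z hZ
  obtain ⟨w, hw, hfix⟩ := hZ
  obtain ⟨β, hβ, -⟩ := hPP S M.F
  have hwS : G.IsAbove S M.F w := ⟨r, hr, hw⟩
  let w' : G.PrimeIn S M.F := ⟨w, hwS⟩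
  have hw' : (β (β.symm w')).1 = w := by rw [Equiv.apply_symm_apply]
  refine ⟨β.symm w', fun z hz => ?_⟩
  apply β.injective
  apply Subtype.ext
  rw [hβ M.Gal z (β.symm w'), hw']
  exact hfix z hz

/-- **FR-D**, unconditional. -/
theorem primePlace : PrimePlaceSpec := primePlace_of G.PL1H173.placePrime

end Fermat.Agent.S55.G.Rec.TOW.FR.H233
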