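/-
S55 / layer G / block REC / adapter TOW / leaf FR — ASSEMBLY of `injAt` (helper481).

* `cH2_jRes` (FR-E) : for `W ⊆ W'`, `c^{W'}_{q,g} = c^{W}_{q,g} ∘ (jRes)_*`  (`q ∈ W`);
* `injAt_of I p : OrbitRepsSpec → LocInjSpec → G.ShapiroJSpec → ResTopSpec → ResCoeffNatSpec →
    <the field `injAt` of `TOW.SemiLocalInv p` for `σ = FR.sigma I`>`.
No `sorry`.
-/
import Fermat.Agent.S55.G.Rec.Tow.FR.AsmLocH481

set_option autoImplicit false
set_option linter.unusedSectionVars false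
set_option linter.style.haveILetI false

open CategoryTheory groupCohomology
open scoped NumberField

noncomputable section

namespace Fermat.Agent.S55.G.Rec.TOW.FR.H481

open Fermat.Agent.S55 Fermat.Agent.S55.Tow Fermat.Agent.S55.E1.H594 Fermat.Agent.S55.G.Rec
open Fermat.Agent.S55.G.Rec.TOW Fermat.Agent.S55.G.Rec.TOW.FR
open IsDedekindDomain

local notation "Qb" => AlgebraicClosure ℚ
local notation "GQ" => (AlgebraicClosure ℚ ≃ₐ[ℚ] AlgebraicClosure ℚ)

variable {S : Finset Nat.Primes} (M : Level S) (H : Subgroup M.Gal)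

/-- **FR-E**: the localisation at `(q, g)` factors through `J_W` for every `W ∋ q`. -/
theorem cH2_jRes {W W' : Finset Nat.Primes} (hW : W ⊆ W') (q : ℕ) [hq : Fact q.Prime]
    (hqW : (⟨q, hq.out⟩ : Nat.Primes) ∈ W) (g : GQ)
    (z : H2 (T.resSub (G.JRep M.Gal W' M.F) H)) :
    cH2 M H W' q (hW hqW) g z =
      cH2 M H W q hqW g (h2Sub (jResRepHom M.Gal M.F hW) H z) := by
  have h1 := LocDatum.map_comp (A := T.resSub (G.JRep M.Gal W' M.F) H) (cDatum M H W q hqW g)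
    (MonoidHom.id ↥H) ((Rep.resFunctor H.subtype).map (jResRepHom M.Gal M.F hW)) z
  refine Eq.trans ?_ h1
  refine congrFun (congrArg DFunLike.coe (LocDatum.map_congr ?_ ?_)) z
  · rfl
  · apply AddMonoidHom.ext
    intro a
    apply Additive.toMul.injective
    apply Units.ext
    exact (evAlg_asRes M W q hqW hW g _).symm

/-- Over `ℚ` (`H = ⊤`) there is at most one pair above each prime. -/
lemma pair_top_eq (x x' : Pair M (⊤ : Subgroup M.Gal) S) (h : x.1 = x'.1) : x = x' := by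
  obtain ⟨q, ⟨g, hg⟩⟩ := x
  obtain ⟨q', ⟨g', hg'⟩⟩ := x'
  have hq : q = q' := h
  subst hq
  haveI : Fact ((q.1 : ℕ).Prime) := ⟨q.1.2⟩
  have hspec := reps_spec (isOpenQ_UH M ⊤) (q.1 : ℕ)
  obtain ⟨r₀, -, huniq⟩ := hspec g'
  have h1 : g = r₀ := huniq g ⟨hg, g' * g⁻¹, Subgroup.mem_top _, 1, Subgroup.one_mem _, by group⟩
  have h2 : g' = r₀ := huniq g' ⟨hg', 1, Subgroup.one_mem _, 1, Subgroup.one_mem _, by group⟩
  have h3 : g = g' := h1.trans h2.symm
  subst h3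
  rfl

/-- **Assembly of `injAt`**: the field `injAt` of `SemiLocalInv p` for `σ = sigma I`. -/
theorem injAt_of (I : LocalInvSystem) (p : ℕ) (hOR : OrbitRepsSpec) (hLI : LocInjSpec)
    (hSh : G.ShapiroJSpec) (hTop : ResTopSpec) (hRCN : ResCoeffNatSpec) :
    ∀ {S : Finset Nat.Primes} (M : Level S) (r : Nat.Primes)
      (y : groupCohomology (lvlJ M) 2), E1.IsPPrimary p y → IsAt S M.Gal M.F r y →
      sigma I M ⊤ (res2 (lvlJ M) ⊤ y) = 0 → y = 0 := by
  intro S M r y _ hat hσ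
  -- the components away from `r` vanish
  have ha : ∀ x : Pair M (⊤ : Subgroup M.Gal) S, x.1.1 ≠ r →
      invPair M ⊤ I x (res2 (lvlJ M) ⊤ y) = 0 := by
    intro x hx
    haveI : Fact ((x.1.1 : ℕ).Prime) := ⟨x.1.1.2⟩
    have hq' : x.1.1 ∈ S.erase r := Finset.mem_erase.2 ⟨hx, x.1.2⟩
    have h1 := cH2_jRes M ⊤ (Finset.erase_subset r S) (x.1.1 : ℕ) hq' x.2.1
      (res2 (lvlJ M) ⊤ y)
    have h2 : h2Sub (jResRepHom M.Gal M.F (Finset.erase_subset r S)) ⊤ (res2 (lvlJ M) ⊤ y) = 0 :=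
      (hRCN M.Gal _ _ (jResRepHom M.Gal M.F (Finset.erase_subset r S)) ⊤ y).trans
        ((congrArg _ hat).trans (map_zero _))
    have h3 : cH2 M ⊤ S (x.1.1 : ℕ) x.1.2 x.2.1 (res2 (lvlJ M) ⊤ y) = 0 :=
      h1.trans ((congrArg _ h2).trans (AddMonoidHom.map_zero _))
    exact (congrArg (I.inv (x.1.1 : ℕ) (locSub (x.1.1 : ℕ) x.2.1 (UH M ⊤))) h3).trans
      (AddMonoidHom.map_zero _)
  -- hence all components vanish
  have hc : ∀ x : Pair M (⊤ : Subgroup M.Gal) S, invPair M ⊤ I x (res2 (lvlJ M) ⊤ y) = 0 := by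
    intro x
    by_cases hx : x.1.1 = r
    · have hs : sigma I M ⊤ (res2 (lvlJ M) ⊤ y) = invPair M ⊤ I x (res2 (lvlJ M) ⊤ y) := by
        rw [sigma_eq_sum_pairs]
        apply finsum_eq_single
        intro x' hx'
        apply ha
        intro hx'r
        exact hx' (pair_top_eq M x' x (Subtype.ext (hx'r.trans hx.symm)))
      rw [← hs]
      exact hσ
    · exact ha x hx
  have hy' : res2 (lvlJ M) ⊤ y = 0 :=
    eq_zero_of_forall_locMapJ M ⊤ hOR hSh _
      (fun x => locMapJ_eq_zero_of_invPair M ⊤ I hLI x _ (hc x))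
  exact (hTop M.Gal (lvlJ M) 2).1 (hy'.trans (map_zero _).symm)

end Fermat.Agent.S55.G.Rec.TOW.FR.H481
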