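/-
S55 / layer G / block REC / adapter TOW / leaf FR-B (subtask 659, helper841).

`orbitReps : FR.OrbitRepsSpec` : every place `𝔪` of `M` above `W` is `H`-conjugate to
`placeOf q g` for a UNIQUE pair `(q, g)`, `q ∈ W`, `g ∈ reps (UH M H) q`.

Steps:
* `exists_algEquiv_comp_eq` (Mathlib only): two ring homomorphisms into a normal extension `E/K`
  with the same maximal kernel differ by an element of `Gal(E/K)`;
* `placeOf_mul_left`, `placeOf_mul_loc` : `placeOf (u g) = ū • placeOf g`, `placeOf (g d) = placeOf g`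
  for `d ∈ D_q`;
* `primeOf_placeOf` : `placeOf q g` lies above `q`;
* `exists_of_placeOf_eq` : `placeOf q a = placeOf q b ⇒ b ∈ M.U · a · D_q`.
-/
import Fermat.Agent.S55.G.Rec.Tow.FR.Spec
import Fermat.Agent.S55.G.LocH897.Trans

set_option autoImplicit false
set_option linter.unusedSectionVars false
set_option linter.style.haveILetI false

open CategoryTheory groupCohomology
open scoped NumberField TensorProduct

noncomputable section

namespace Fermat.Agent.S55.G.Rec.TOW.FR.H841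

open Fermat.Agent.S55 Fermat.Agent.S55.Tow Fermat.Agent.S55.E1.H594 Fermat.Agent.S55.G.Rec
open Fermat.Agent.S55.G.Rec.TOW.FR Fermat.Agent.S55.G.PL0H713 Fermat.Agent.S55.G.LocH897
open IsDedekindDomain

local notation "Qb" => AlgebraicClosure ℚ
local notation "GQ" => (AlgebraicClosure ℚ ≃ₐ[ℚ] AlgebraicClosure ℚ)

/-! ## 1. A general extension lemma (Mathlib only) -/

/-- Two ring homomorphisms `f g : A → E` into a normal extension `E/K` with `ker f` maximal and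
contained in `ker g`, both restricting to the structure map on suitable lifts of `K`, differ by
an element of `Gal(E/K)`. -/
theorem exists_algEquiv_comp_eq {K E A : Type*} [Field K] [Field E] [Algebra K E] [Normal K E]
    [CommRing A] (f g : A →+* E) (hmax : (RingHom.ker f).IsMaximal)
    (hker : ∀ r, f r = 0 → g r = 0)
    (hK : ∀ y : K, ∃ r : A, f r = algebraMap K E y ∧ g r = algebraMap K E y) :
    ∃ τ : E ≃ₐ[K] E, ∀ r, τ (f r) = g r := by
  classical
  letI : Field (A ⧸ RingHom.ker f) := Ideal.Quotient.field _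
  let fb : (A ⧸ RingHom.ker f) →+* E := Ideal.Quotient.lift _ f (fun r hr => hr)
  let gb : (A ⧸ RingHom.ker f) →+* E := Ideal.Quotient.lift _ g (fun r hr => hker r hr)
  have hfb : ∀ r, fb (Ideal.Quotient.mk _ r) = f r := fun r => Ideal.Quotient.lift_mk _ _ _
  have hgb : ∀ r, gb (Ideal.Quotient.mk _ r) = g r := fun r => Ideal.Quotient.lift_mk _ _ _
  have hinj : Function.Injective fb := fb.injective
  have hmem : ∀ y : K, algebraMap K E y ∈ fb.range := by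
    intro y
    obtain ⟨r, hr, -⟩ := hK y
    exact ⟨Ideal.Quotient.mk _ r, (hfb r).trans hr⟩
  let e : (A ⧸ RingHom.ker f) ≃+* fb.range := RingEquiv.ofBijective fb.rangeRestrict
    ⟨fun x y h => hinj (congrArg Subtype.val h), fb.rangeRestrict_surjective⟩
  let j : K →+* (A ⧸ RingHom.ker f) :=
    (e.symm : fb.range →+* (A ⧸ RingHom.ker f)).comp ((algebraMap K E).codRestrict fb.range hmem)
  have hj : ∀ y, fb (j y) = algebraMap K E y := by
    intro y
    have h1 : e (j y) = (algebraMap K E).codRestrict fb.range hmem y := by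
      show e (e.symm _) = _
      rw [RingEquiv.apply_symm_apply]
    exact congrArg Subtype.val h1
  have hgj : ∀ y, gb (j y) = algebraMap K E y := by
    intro y
    obtain ⟨r, hr, hr'⟩ := hK y
    have h1 : j y = Ideal.Quotient.mk _ r := hinj ((hj y).trans ((hfb r).trans hr).symm)
    rw [h1, hgb, hr']
  letI algK : Algebra K (A ⧸ RingHom.ker f) := j.toAlgebra
  letI algE : Algebra (A ⧸ RingHom.ker f) E := fb.toAlgebra
  haveI : IsScalarTower K (A ⧸ RingHom.ker f) E :=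
    IsScalarTower.of_algebraMap_eq (fun y => (hj y).symm)
  let ϕ : (A ⧸ RingHom.ker f) →ₐ[K] E := { gb with commutes' := fun y => hgj y }
  let τ₀ : E →ₐ[K] E := ϕ.liftNormal E
  refine ⟨AlgEquiv.ofBijective τ₀ (AlgHom.normal_bijective K E E τ₀), fun r => ?_⟩
  have h := ϕ.liftNormal_commutes E (Ideal.Quotient.mk _ r)
  have h1 : algebraMap (A ⧸ RingHom.ker f) E (Ideal.Quotient.mk _ r) = f r := hfb r
  have h2 : ϕ (Ideal.Quotient.mk _ r) = g r := hgb r
  rw [h1, h2] at h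
  exact h

/-! ## 2. The places `placeOf q g` -/

section Place

variable {S : Finset Nat.Primes} (M : Level S) (W : Finset Nat.Primes) (q : ℕ)
  [hq : Fact q.Prime] (hqW : (⟨q, hq.out⟩ : Nat.Primes) ∈ W)

/-- `placeOf q (u g) = ū • placeOf q g`. -/
theorem placeOf_mul_left (u g : GQ) :
    placeOf M W q hqW (u * g) =
      G.sPlaceSMul W M.Gal (QuotientGroup.mk u : M.Gal) (placeOf M W q hqW g) := by
  refine MaximalSpectrum.ext (Ideal.ext fun a => ?_)
  rw [G.mem_sPlaceSMul_iff, mem_placeOf, mem_placeOf, evAlg_mul_left]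
  rfl

/-- `ev_{q, g d} = τ⁻¹ ∘ ev_{q, g}` for `d = loc τ`. -/
theorem evAlg_mul_loc (g : GQ) (τ : PadicAlgCl q ≃ₐ[ℚ_[q]] PadicAlgCl q) (a : G.AS W M.F) :
    evAlg M W q hqW (g * localGaloisToGlobal q τ) a = τ⁻¹ (evAlg M W q hqW g a) := by
  have h1 : g * localGaloisToGlobal q τ = (g * localGaloisToGlobal q τ * g⁻¹) * g := by group
  have h2 : (g * localGaloisToGlobal q τ * g⁻¹)⁻¹ = g * localGaloisToGlobal q τ⁻¹ * g⁻¹ := by
    rw [map_inv]; group
  rw [h1, evAlg_mul_left, h2, evAlg_equivariant]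

/-- `placeOf q (g d) = placeOf q g` for `d ∈ D_q`. -/
theorem placeOf_mul_loc (g : GQ) (τ : PadicAlgCl q ≃ₐ[ℚ_[q]] PadicAlgCl q) :
    placeOf M W q hqW (g * localGaloisToGlobal q τ) = placeOf M W q hqW g := by
  refine MaximalSpectrum.ext (Ideal.ext fun a => ?_)
  rw [mem_placeOf, mem_placeOf, evAlg_mul_loc]
  exact (map_eq_zero_iff _ (τ⁻¹ : PadicAlgCl q ≃ₐ[ℚ_[q]] PadicAlgCl q).injective)

/-- `placeOf q g` lies above `q`. -/
theorem primeOf_placeOf (g : GQ) :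
    primeOf W M.F (placeOf M W q hqW g) = ⟨⟨q, hq.out⟩, hqW⟩ := by
  by_contra hne
  have h1 := ofQS_single_primeOf W M.F (placeOf M W q hqW g)
  have h2 : (G.asIncl W M.F (single W (primeOf W M.F (placeOf M W q hqW g)) 1) : G.AS W M.F) ∈
      (placeOf M W q hqW g).asIdeal := by
    rw [mem_placeOf, evAlg_asIncl]
    have h3 := single_apply_ne W (primeOf W M.F (placeOf M W q hqW g)) ⟨⟨q, hq.out⟩, hqW⟩
      (fun h => hne h.symm) 1
    have h4 : (single W (primeOf W M.F (placeOf M W q hqW g)) 1 : G.QS W) ⟨⟨q, hq.out⟩, hqW⟩ = 0 :=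
      h3
    rw [h4, map_zero]
  have h5 : G.LocField.ofQS W (placeOf M W q hqW g)
      (single W (primeOf W M.F (placeOf M W q hqW g)) 1) = 0 :=
    (G.LocField.mk_eq_zero_iff W _ _).2 h2
  rw [h5] at h1
  exact zero_ne_one h1

/-- **Key lemma.**  `placeOf q a = placeOf q b ⇒ b ∈ M.U · a · D_q`. -/
theorem exists_of_placeOf_eq (a b : GQ) (h : placeOf M W q hqW a = placeOf M W q hqW b) :
    ∃ m ∈ M.U, ∃ d ∈ (localGaloisToGlobal q).range, b = m * a * d := by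
  haveI : Normal ℚ_[q] (PadicAlgCl q) := IsAlgClosure.normal ℚ_[q] (PadicAlgCl q)
  have hmax : (RingHom.ker (evAlg M W q hqW a : G.AS W M.F →+* PadicAlgCl q)).IsMaximal :=
    (placeOf M W q hqW a).isMaximal
  have hker : ∀ r, (evAlg M W q hqW a : G.AS W M.F →+* PadicAlgCl q) r = 0 →
      (evAlg M W q hqW b : G.AS W M.F →+* PadicAlgCl q) r = 0 := by
    intro r hr
    have h1 : r ∈ (placeOf M W q hqW a).asIdeal := (mem_placeOf M W q hqW a r).2 hr
    rw [h] at h1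
    exact (mem_placeOf M W q hqW b r).1 h1
  have hK : ∀ y : ℚ_[q], ∃ r : G.AS W M.F,
      (evAlg M W q hqW a : G.AS W M.F →+* PadicAlgCl q) r = algebraMap ℚ_[q] (PadicAlgCl q) y ∧
      (evAlg M W q hqW b : G.AS W M.F →+* PadicAlgCl q) r = algebraMap ℚ_[q] (PadicAlgCl q) y := by
    intro y
    have hy : (single W ⟨⟨q, hq.out⟩, hqW⟩ y : G.QS W) ⟨⟨q, hq.out⟩, hqW⟩ = y :=
      single_apply_same W ⟨⟨q, hq.out⟩, hqW⟩ y
    refine ⟨G.asIncl W M.F (single W ⟨⟨q, hq.out⟩, hqW⟩ y), ?_, ?_⟩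
    · show evAlg M W q hqW a _ = _
      rw [evAlg_asIncl, hy]
    · show evAlg M W q hqW b _ = _
      rw [evAlg_asIncl, hy]
  obtain ⟨τ, hτ⟩ := exists_algEquiv_comp_eq (K := ℚ_[q])
    (evAlg M W q hqW a : G.AS W M.F →+* PadicAlgCl q)
    (evAlg M W q hqW b : G.AS W M.F →+* PadicAlgCl q) hmax hker hK
  -- `b * loc τ * a⁻¹` fixes `M.F`
  have hfix : b * localGaloisToGlobal q τ * a⁻¹ ∈ M.U := by
    show _ ∈ M.F.fixingSubgroup
    rw [IntermediateField.mem_fixingSubgroup_iff]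
    intro x hx
    have h1 := hτ (G.asDiag W M.F ⟨x, hx⟩)
    have h2 : (evAlg M W q hqW a : G.AS W M.F →+* PadicAlgCl q) (G.asDiag W M.F ⟨x, hx⟩) =
        padicEmbedding q (a⁻¹ x) := evAlg_asDiag M W q hqW a ⟨x, hx⟩
    have h3 : (evAlg M W q hqW b : G.AS W M.F →+* PadicAlgCl q) (G.asDiag W M.F ⟨x, hx⟩) =
        padicEmbedding q (b⁻¹ x) := evAlg_asDiag M W q hqW b ⟨x, hx⟩
    rw [h2, h3, ← padicEmbedding_localGaloisToGlobal] at h1
    have h4 : localGaloisToGlobal q τ (a⁻¹ x) = b⁻¹ x := (padicEmbedding q).injective h1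
    show (b * localGaloisToGlobal q τ * a⁻¹) x = x
    rw [AlgEquiv.mul_apply, AlgEquiv.mul_apply, h4]
    exact AlgEquiv.apply_symm_apply b x
  refine ⟨b * localGaloisToGlobal q τ * a⁻¹, hfix, localGaloisToGlobal q τ⁻¹, ⟨τ⁻¹, rfl⟩, ?_⟩
  rw [map_inv]
  group

end Place

/-! ## 3. The leaf -/

/-- The action of `H` on places is the restriction of the action of `M.Gal`. -/
theorem sPlaceSMul_subgroup {S : Finset Nat.Primes} (M : Level S) (H : Subgroup M.Gal)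
    (W : Finset Nat.Primes) (h : ↥H) (𝔪 : G.SPlace W M.F) :
    G.sPlaceSMul W ↥H h 𝔪 = G.sPlaceSMul W M.Gal (h : M.Gal) 𝔪 := by
  refine MaximalSpectrum.ext (Ideal.ext fun a => ?_)
  rw [G.mem_sPlaceSMul_iff, G.mem_sPlaceSMul_iff]
  have : G.asAut W ↥H M.F h⁻¹ a = G.asAut W M.Gal M.F (h : M.Gal)⁻¹ a := by
    induction a using TensorProduct.induction_on with
    | zero => simp
    | add a b ha hb => simp only [map_add, ha, hb]
    | tmul x y => rw [G.asAut_tmul, G.asAut_tmul]; rfl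
  rw [this]

/-- **FR-B.** -/
theorem orbitReps : OrbitRepsSpec := by
  intro S M H W 𝔪
  classical
  -- the prime below `𝔪`
  set q₀ : W := primeOf W M.F 𝔪 with hq₀
  haveI hqf : Fact ((q₀.1 : ℕ).Prime) := ⟨q₀.1.2⟩
  have hq₀W : (⟨(q₀.1 : ℕ), hqf.out⟩ : Nat.Primes) ∈ W := q₀.2
  have hq₀eq : (⟨⟨(q₀.1 : ℕ), hqf.out⟩, hq₀W⟩ : W) = q₀ := rfl
  have hfixQ : ∀ x : M.F, (∀ g : M.Gal, g • x = x) → ∃ c : ℚ, algebraMap ℚ M.F c = x :=
    fun x hx => (level_isGaloisGroup M).isInvariant.isInvariant x hx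
  -- existence
  have hP1 : primeOf W M.F (placeOf M W (q₀.1 : ℕ) hq₀W 1) = primeOf W M.F 𝔪 :=
    primeOf_placeOf M W (q₀.1 : ℕ) hq₀W 1
  obtain ⟨γ, hγ⟩ := exists_sPlaceSMul_eq W M.Gal M.F hfixQ (placeOf M W (q₀.1 : ℕ) hq₀W 1) 𝔪 hP1
  obtain ⟨u, rfl⟩ := QuotientGroup.mk_surjective γ
  have hu : placeOf M W (q₀.1 : ℕ) hq₀W u = 𝔪 := by
    rw [← hγ, ← placeOf_mul_left, mul_one]
  have hR := reps_spec (isOpenQ_UH M H) (q₀.1 : ℕ)
  obtain ⟨r, ⟨hrR, v, hv, d, ⟨τ, rfl⟩, hvrd⟩, -⟩ := hR u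
  have hr𝔪 : G.sPlaceSMul W M.Gal (QuotientGroup.mk v : M.Gal) (placeOf M W (q₀.1 : ℕ) hq₀W r) =
      𝔪 := by
    rw [← placeOf_mul_left, ← placeOf_mul_loc M W (q₀.1 : ℕ) hq₀W (v * r) τ, ← hvrd, hu]
  refine ⟨⟨q₀, ⟨r, hrR⟩⟩, ⟨⟨QuotientGroup.mk v, hv⟩, ?_⟩, ?_⟩
  · show G.sPlaceSMul W ↥H ⟨QuotientGroup.mk v, hv⟩ (placeOf M W (q₀.1 : ℕ) hq₀W r) = 𝔪
    rw [sPlaceSMul_subgroup]
    exact hr𝔪
  -- uniqueness
  rintro ⟨q', ⟨r', hr'R⟩⟩ ⟨h', hh'⟩
  haveI hqf' : Fact ((q'.1 : ℕ).Prime) := ⟨q'.1.2⟩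
  have hh'' : G.sPlaceSMul W ↥H h' (placeOf M W (q'.1 : ℕ) q'.2 r') = 𝔪 := hh'
  have hq' : q' = q₀ := by
    have h1 := primeOf_sPlaceSMul W ↥H M.F h' (placeOf M W (q'.1 : ℕ) q'.2 r')
    rw [hh''] at h1
    have h2 := primeOf_placeOf M W (q'.1 : ℕ) q'.2 r'
    exact (h1.trans h2).symm
  subst hq'
  have hrr' : r' = r := by
    obtain ⟨v', hv'⟩ := QuotientGroup.mk_surjective (h' : M.Gal)
    have hv'U : v' ∈ UH M H := by
      rw [mem_UH, hv']
      exact h'.2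
    have h2 : placeOf M W (q₀.1 : ℕ) hq₀W (v' * r') = 𝔪 := by
      rw [placeOf_mul_left, hv', ← sPlaceSMul_subgroup]
      exact hh''
    have h3 : placeOf M W (q₀.1 : ℕ) hq₀W (v * r) = 𝔪 := by
      rw [placeOf_mul_left]
      exact hr𝔪
    obtain ⟨m, hm, d', hd', hmd⟩ :=
      exists_of_placeOf_eq M W (q₀.1 : ℕ) hq₀W (v * r) (v' * r') (h3.trans h2.symm)
    -- `r' = (v'⁻¹ m v) r d'`
    have h4 : r' = (v'⁻¹ * m * v) * r * d' := by
      have : v'⁻¹ * (v' * r') = v'⁻¹ * (m * (v * r) * d') := by rw [hmd]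
      rw [inv_mul_cancel_left] at this
      rw [this]
      group
    have h5 : v'⁻¹ * m * v ∈ UH M H :=
      (UH M H).mul_mem ((UH M H).mul_mem ((UH M H).inv_mem hv'U) (U_le_UH M H hm)) hv
    obtain ⟨r₀, -, huniq⟩ := hR r'
    have e1 : r' = r₀ :=
      huniq r' ⟨hr'R, 1, (UH M H).one_mem, 1, Subgroup.one_mem _, by group⟩
    have e2 : r = r₀ := huniq r ⟨hrR, _, h5, d', hd', h4⟩
    rw [e1, e2]
  subst hrr'
  rfl

end Fermat.Agent.S55.G.Rec.TOW.FR.H841
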