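/-
S55 / layer G / block REC / adapter TOW / leaf FR — `locClass` CLOSED (helper481).

`locClassField I p : FR.H724.LocClassField I p`, unconditional:
`H481.locClass_of` applied to the landed leaves FR-D (`H233.primePlace`), FR-B (`H841.orbitReps`),
FR-C (`H715.locExist`), FR-A (`H894.locInj`) and `G.JGlueH604.shapiroJ`.
No `sorry`.
-/
import Fermat.Agent.S55.G.Rec.Tow.FR.AsmLocH481
import Fermat.Agent.S55.G.Rec.Tow.FR.AssemblyH724
import Fermat.Agent.S55.G.Rec.Tow.FR.PrimePlaceH233
import Fermat.Agent.S55.G.Rec.Tow.FR.OrbitRepsH841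
import Fermat.Agent.S55.G.Rec.Tow.FR.LocExistH715
import Fermat.Agent.S55.G.Rec.Tow.FR.LocInjH894
import Fermat.Agent.S55.G.JGlueClosedH604

set_option autoImplicit false

noncomputable section

namespace Fermat.Agent.S55.G.Rec.TOW.FR.H481

open Fermat.Agent.S55 Fermat.Agent.S55.G.Rec Fermat.Agent.S55.G.Rec.TOW
  Fermat.Agent.S55.G.Rec.TOW.FR

/-- **`locClass` for `σ = FR.sigma I`**, unconditional. -/
theorem locClassField (I : LocalInvSystem) (p : ℕ) : FR.H724.LocClassField I p :=
  fun M r hr H Z hZH hZ hfix =>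
    locClass_of I p FR.H233.primePlace FR.H841.orbitReps FR.H715.locExist FR.H894.locInj
      G.JGlueH604.shapiroJ M r hr H Z hZH hZ hfix

end Fermat.Agent.S55.G.Rec.TOW.FR.H481
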