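/-
S55 / layer G / block REC / adapter TOW / leaf FR — CLOSED (helper481).

* `injAtField I p : FR.H724.InjAtField I p`, `locClassField I p : FR.H724.LocClassField I p`
  (unconditional; leaves FR-A `H894.locInj`, FR-B `H841.orbitReps`, FR-C `H715.locExist`,
  FR-D `H233.primePlace`, `G.JGlueH604.shapiroJ`, `H323.resTop`, `H323.resCoeffNat`);
* `finRec_of_recip I p : ReciprocitySpec I p → FinRecSpec p`;
* `finRec p hp hp2 : FinRecSpec p` for every odd prime `p` (REC closed: `Rec.H964`).
No `sorry`.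
-/
import Fermat.Agent.S55.G.Rec.Tow.FR.LocClassClosedH481
import Fermat.Agent.S55.G.Rec.Tow.FR.AsmInjH481
import Fermat.Agent.S55.G.Rec.Tow.H323.AlgB
import Fermat.Agent.S55.G.Rec.H964.Closed

set_option autoImplicit false

noncomputable section

namespace Fermat.Agent.S55.G.Rec.TOW.FR.H481

open Fermat.Agent.S55 Fermat.Agent.S55.G.Rec Fermat.Agent.S55.G.Rec.TOW
  Fermat.Agent.S55.G.Rec.TOW.FR

/-- **`injAt` for `σ = FR.sigma I`**, unconditional. -/
theorem injAtField (I : LocalInvSystem) (p : ℕ) : FR.H724.InjAtField I p :=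
  fun M r y hy hat h0 =>
    injAt_of I p FR.H841.orbitReps FR.H894.locInj G.JGlueH604.shapiroJ TOW.H323.resTop
      TOW.H323.resCoeffNat M r y hy hat h0

/-- **FR**: `FinRecSpec p` from the reciprocity law. -/
theorem finRec_of_recip (I : LocalInvSystem) (p : ℕ) (hR : ReciprocitySpec I p) :
    FinRecSpec p :=
  FR.H724.finRec_of_fields I p hR (injAtField I p) (locClassField I p)

/-- **FR closed**: `FinRecSpec p` for every odd prime `p`. -/
theorem finRec (p : ℕ) (hp : p.Prime) (hp2 : p ≠ 2) : FinRecSpec p :=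
  haveI : Fact p.Prime := ⟨hp⟩
  finRec_of_recip Rec.H964.localInvSystem p (Rec.H964.reciprocity p hp2 Rec.H964.localInvSystem)

end Fermat.Agent.S55.G.Rec.TOW.FR.H481
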