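import Fermat.Agent.S55.G.Rec.Tow.FR.Spec
import Fermat.Agent.S55.G.Rec.OrbitNormH934

/-!
# S55 / REC2-TOW / FR, leaf FR-COUNT (helper655)

`count : FR.CountSpec`: for a tower level `M`, a subgroup `H ≤ Gal(M/ℚ)` and a prime `q`,
`∑_{v | q} [K_v : ℚ_q] = [K : ℚ]` (`K = M^H`) in double-coset form:
`∑_{g ∈ reps (UH M H) q} [locSub q g ⊤ : locSub q g (UH M H)] = [Gal(M/ℚ) : H]`.

Proof: the orbit decomposition `Σ_{r ∈ R} G_q / V_r ≃ G_ℚ / U` (`Rec.H934.orbSigma_bijective`).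
-/

set_option autoImplicit false

namespace Fermat.Agent.S55.G.Rec.TOW.FR.H655

open Fermat.Agent.S55 Fermat.Agent.S55.Tow Fermat.Agent.S55.G.Rec

local notation "Qb" => AlgebraicClosure ℚ
local notation "GQ" => (AlgebraicClosure ℚ ≃ₐ[ℚ] AlgebraicClosure ℚ)

/-- **Orbit counting**: for an open subgroup `U ≤ G_ℚ` and representatives `R` of
`U \ G_ℚ / D_q`, `∑_{r ∈ R} [G_q : V_r] = [G_ℚ : U]`. -/
theorem sum_index_locSub (q : ℕ) [Fact q.Prime] {U : Subgroup GQ} (hU : IsOpenQ U)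
    (R : Finset GQ) (hR : IsDoubleCosetReps U (localGaloisToGlobal q).range R) :
    ∑ r ∈ R, (locSub q r U).index = U.index := by
  haveI : ∀ r : ↥R, Finite ((PadicAlgCl q ≃ₐ[ℚ_[q]] PadicAlgCl q) ⧸ locSub q (r : GQ) U) :=
    fun r => H934.finite_quotient_locSub q hU (r : GQ)
  have h1 := Nat.card_congr (Equiv.ofBijective _ (H934.orbSigma_bijective q U R hR))
  rw [Nat.card_sigma] at h1
  have h2 : ∑ r : ↥R, (locSub q (r : GQ) U).index = U.index := h1
  rw [← h2]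
  exact (Finset.sum_coe_sort R fun r => (locSub q r U).index).symm

/-- `UH M ⊤ = ⊤`. -/
theorem UH_top {S : Finset Nat.Primes} (M : Level S) : UH M (⊤ : Subgroup M.Gal) = ⊤ := rfl

/-- `locSub q g ⊤ = ⊤`. -/
theorem locSub_top (q : ℕ) [Fact q.Prime] (g : GQ) : locSub q g (⊤ : Subgroup GQ) = ⊤ := rfl

/-- `[G_ℚ : U_H] = [Gal(M/ℚ) : H]`. -/
theorem index_UH {S : Finset Nat.Primes} (M : Level S) (H : Subgroup M.Gal) :
    (UH M H).index = H.index :=
  Subgroup.index_comap_of_surjective H (QuotientGroup.mk'_surjective M.U)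

/-- **FR-COUNT** (`FR/Spec.lean`): exact shape of `CountSpec`. -/
theorem count : CountSpec := by
  intro S M H q _
  have h := sum_index_locSub q (isOpenQ_UH M H) (reps (UH M H) q)
    (reps_spec (isOpenQ_UH M H) q)
  rw [index_UH] at h
  rw [← h]
  refine Finset.sum_congr rfl fun g _ => ?_
  rw [UH_top, locSub_top, Subgroup.relIndex_top_right]

end Fermat.Agent.S55.G.Rec.TOW.FR.H655
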