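import Fermat.Agent.S55.G.Rec.Tow.FR.ConjH414
import Fermat.Agent.S55.G.Rec.H124.ProductFormula

/-!
# S55 / layer G / block REC / adapter TOW / FR : the `resIndex` assembly   (helper414)

`resIndex_of : ConjSpec I → CountSpec → ∀ M H y, σ_H (res_H y) = [G : H] • σ_⊤ (res_⊤ y)` for the
semilocal invariant `σ = FR.sigma I`.

* RES1 `cH2_res` : `c_{q,g}^H (res_H y) = lRes (c_{q,g}^⊤ (res_⊤ y))`
  (`LocDatum.map_comp`, `LocDatum.map_restrict`);
* `I.inv_res` : `inv ∘ lRes = relIndex • inv`;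
* FR-CONJ : `inv (c_{q,g}^⊤ z)` does not depend on `g`;
* FR-COUNT : `∑_{g ∈ reps} relIndex = [G : H]` (and `= 1` for `H = ⊤`).
-/

set_option autoImplicit false
set_option linter.unusedSectionVars false
set_option linter.style.haveILetI false

open CategoryTheory groupCohomology
open scoped NumberField

noncomputable section

namespace Fermat.Agent.S55.G.Rec.TOW.FR.H414

open Fermat.Agent.S55 Fermat.Agent.S55.Tow Fermat.Agent.S55.E1.H594 Fermat.Agent.S55.G.Rec
open Fermat.Agent.S55.G.Rec.TOW Fermat.Agent.S55.G.Rec.TOW.FR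
open IsDedekindDomain

local notation "Qb" => AlgebraicClosure ℚ
local notation "GQ" => (AlgebraicClosure ℚ ≃ₐ[ℚ] AlgebraicClosure ℚ)

section

variable {S : Finset Nat.Primes} (M : Level S) (H : Subgroup M.Gal) (W : Finset Nat.Primes)
  (q : ℕ) [hq : Fact q.Prime] (hqW : (⟨q, hq.out⟩ : Nat.Primes) ∈ W)

theorem locSub_le_top (g : GQ) : locSub q g (UH M H) ≤ locSub q g (UH M ⊤) :=
  fun τ _ => mem_locSub_top M q g τ

/-- **RES1**: localisation commutes with restriction to a subgroup. -/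
theorem cH2_res (g : GQ) (y : H2 (G.JRep M.Gal W M.F)) :
    cH2 M H W q hqW g (res2 (G.JRep M.Gal W M.F) H y) =
      lRes q (locSub_le_top M H q g)
        (cH2 M ⊤ W q hqW g (res2 (G.JRep M.Gal W M.F) ⊤ y)) := by
  unfold cH2
  rw [← LocDatum.map_restrict]
  show (cDatum M H W q hqW g).map
      ((groupCohomology.map H.subtype (𝟙 (T.resSub (G.JRep M.Gal W M.F) H)) 2).hom y) =
    ((cDatum M ⊤ W q hqW g).restrict (locSub_le_top M H q g)).map
      ((groupCohomology.map (⊤ : Subgroup M.Gal).subtype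
        (𝟙 (T.resSub (G.JRep M.Gal W M.F) ⊤)) 2).hom y)
  rw [← LocDatum.map_comp, ← LocDatum.map_comp]
  exact congrFun (congrArg DFunLike.coe (LocDatum.map_congr rfl rfl)) y

end

/-- The number of places of `ℚ` above `q` is one. -/
theorem card_reps_top (hCount : CountSpec) {S : Finset Nat.Primes} (M : Level S) (q : ℕ)
    [Fact q.Prime] : (reps (UH M (⊤ : Subgroup M.Gal)) q).card = 1 := by
  have h := hCount M (⊤ : Subgroup M.Gal) q
  rw [Subgroup.index_top] at h
  rw [← h, Finset.card_eq_sum_ones]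
  refine Finset.sum_congr rfl fun g _ => ?_
  exact (Subgroup.relIndex_self _).symm

/-- The contribution of one prime. -/
theorem sum_inv_cH2_res (I : LocalInvSystem) (hConj : ConjSpec I) (hCount : CountSpec)
    {S : Finset Nat.Primes} (M : Level S) (H : Subgroup M.Gal) (W : Finset Nat.Primes)
    (q : ℕ) [hq : Fact q.Prime] (hqW : (⟨q, hq.out⟩ : Nat.Primes) ∈ W)
    (y : H2 (G.JRep M.Gal W M.F)) :
    ∑ g ∈ reps (UH M H) q,
        I.inv q (locSub q g (UH M H)) (cH2 M H W q hqW g (res2 (G.JRep M.Gal W M.F) H y)) =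
      H.index • ∑ g ∈ reps (UH M ⊤) q,
        I.inv q (locSub q g (UH M ⊤))
          (cH2 M ⊤ W q hqW g (res2 (G.JRep M.Gal W M.F) ⊤ y)) := by
  have hL : ∀ g : GQ,
      I.inv q (locSub q g (UH M H)) (cH2 M H W q hqW g (res2 (G.JRep M.Gal W M.F) H y)) =
        (locSub q g (UH M H)).relIndex (locSub q g (UH M ⊤)) •
          I.inv q (locSub q 1 (UH M ⊤))
            (cH2 M ⊤ W q hqW 1 (res2 (G.JRep M.Gal W M.F) ⊤ y)) := by
    intro g
    rw [cH2_res, I.inv_res q _ _ _ (H124.isOpenL_locSub124 q (isOpenQ_UH M H) g)]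
    exact congrArg _ (hConj M W q hqW g 1 _)
  have hT : ∀ g : GQ,
      I.inv q (locSub q g (UH M ⊤)) (cH2 M ⊤ W q hqW g (res2 (G.JRep M.Gal W M.F) ⊤ y)) =
        I.inv q (locSub q 1 (UH M ⊤))
          (cH2 M ⊤ W q hqW 1 (res2 (G.JRep M.Gal W M.F) ⊤ y)) :=
    fun g => hConj M W q hqW g 1 _
  have h1 : ∑ g ∈ reps (UH M H) q,
        I.inv q (locSub q g (UH M H)) (cH2 M H W q hqW g (res2 (G.JRep M.Gal W M.F) H y)) =
      H.index • I.inv q (locSub q 1 (UH M ⊤))
            (cH2 M ⊤ W q hqW 1 (res2 (G.JRep M.Gal W M.F) ⊤ y)) := by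
    rw [Finset.sum_congr rfl fun g _ => hL g, ← Finset.sum_smul]
    exact congrArg (· • _) (hCount M H q)
  have h2 : ∑ g ∈ reps (UH M ⊤) q,
        I.inv q (locSub q g (UH M ⊤))
          (cH2 M ⊤ W q hqW g (res2 (G.JRep M.Gal W M.F) ⊤ y)) =
      I.inv q (locSub q 1 (UH M ⊤))
            (cH2 M ⊤ W q hqW 1 (res2 (G.JRep M.Gal W M.F) ⊤ y)) := by
    rw [Finset.sum_congr rfl fun g _ => hT g, Finset.sum_const]
    exact (congrArg (· • _) (card_reps_top hCount M q)).trans (one_smul _ _)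
  rw [h1, h2]

/-- **`resIndex`** for `σ = FR.sigma I`: restriction multiplies the semilocal invariant by the
index. -/
theorem resIndex_of (I : LocalInvSystem) (hConj : ConjSpec I) (hCount : CountSpec)
    {S : Finset Nat.Primes} (M : Level S) (H : Subgroup M.Gal)
    (y : groupCohomology (lvlJ M) 2) :
    sigma I M H (res2 (lvlJ M) H y) = H.index • sigma I M ⊤ (res2 (lvlJ M) ⊤ y) := by
  rw [sigma_apply, sigma_apply, Finset.smul_sum]
  refine Finset.sum_congr rfl fun q _ => ?_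
  refine (sigmaAt_apply I M H q _).trans ?_
  refine Eq.trans ?_ (congrArg (H.index • ·) (sigmaAt_apply I M ⊤ q _).symm)
  exact @sum_inv_cH2_res I hConj hCount S M H S (q.1 : ℕ) ⟨q.1.2⟩ q.2 y

end Fermat.Agent.S55.G.Rec.TOW.FR.H414
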