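import Fermat.Agent.S55.G.Rec.Tow.FR.AsmLocH481
import Fermat.Agent.S55.G.Rec.Tow.FR.ResIndexH414

/-!
# S55 / layer G / block REC / adapter TOW / FR : the `injAt` assembly   (helper414)

`injAt_of I : CountSpec → LocInjSpec → OrbitRepsSpec → G.ShapiroJSpec → ResTopSpec →
  <the field injAt of TOW.SemiLocalInv p for σ = FR.sigma I>`.

Proof.  `z = res_⊤ y`.  For `q ∈ S`, `q ≠ r`, the localisation `c_{q,g}` factors through
`J_{S∖{r}}` (FR-E, `evAlg_asRes`), hence `c_{q,g} z = 0` because `y` is concentrated at `r`.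
There is only one place of `ℚ` above `r` (FR-COUNT), so `σ_⊤ z = inv (c_{r,g₀} z)`, which vanishes
by hypothesis.  Hence all invariants of `z` at the pairs `(q, g)` vanish, so all intrinsic
localisations vanish (`inv` injective + FR-A), so `z = 0` (FR-B + Shapiro), so `y = 0`.
-/

set_option autoImplicit false
set_option linter.unusedSectionVars false
set_option linter.style.haveILetI false

open CategoryTheory groupCohomology
open scoped NumberField

noncomputable section

namespace Fermat.Agent.S55.G.Rec.TOW.FR.H414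

open Fermat.Agent.S55 Fermat.Agent.S55.Tow Fermat.Agent.S55.E1.H594 Fermat.Agent.S55.G.Rec
open Fermat.Agent.S55.G.Rec.TOW Fermat.Agent.S55.G.Rec.TOW.FR
open IsDedekindDomain

local notation "Qb" => AlgebraicClosure ℚ
local notation "GQ" => (AlgebraicClosure ℚ ≃ₐ[ℚ] AlgebraicClosure ℚ)

section FRE

variable {S : Finset Nat.Primes} (M : Level S) (H : Subgroup M.Gal) {W W' : Finset Nat.Primes}
  (hW : W ⊆ W') (q : ℕ) [hq : Fact q.Prime] (hqW : (⟨q, hq.out⟩ : Nat.Primes) ∈ W)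

theorem evU_jRes (g : GQ) (a : Additive (G.AS W' M.F)ˣ) :
    evU M W q hqW g (G.jRes hW M.F a) = evU M W' q (hW hqW) g a := by
  apply Additive.toMul.injective
  apply Units.ext
  exact evAlg_asRes M W q hqW hW g _

/-- the two data over the full group `Gal(M/ℚ)` agree -/
theorem datum_map_eq (g : GQ) :
    ((cDatum M H W' q (hW hqW) g).comp H.subtype
        (𝟙 (T.resSub (G.JRep M.Gal W' M.F) H))).map =
      (((cDatum M H W q hqW g).comp H.subtype
        (𝟙 (T.resSub (G.JRep M.Gal W M.F) H))).comp (MonoidHom.id M.Gal)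
          (jResRepHom M.Gal M.F hW)).map := by
  refine LocDatum.map_congr rfl ?_
  ext a
  exact (evU_jRes M hW q hqW g a).symm

/-- **FR-E**: for `q ∈ W ⊆ W'` the localisation `c_{q,g}` on `H²(Γ, J_{W'})` (composed with the
restriction to `H`) factors through `H²(Γ, J_W)`. -/
theorem cH2_res_eq_jRes (g : GQ) (y : H2 (G.JRep M.Gal W' M.F)) :
    cH2 M H W' q (hW hqW) g (res2 (G.JRep M.Gal W' M.F) H y) =
      cH2 M H W q hqW g (res2 (G.JRep M.Gal W M.F) H
        (h2Top (jResRepHom M.Gal M.F hW) y)) := by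
  have h1 := LocDatum.map_comp (cDatum M H W' q (hW hqW) g) H.subtype
    (𝟙 (T.resSub (G.JRep M.Gal W' M.F) H)) y
  have h2 := LocDatum.map_comp (cDatum M H W q hqW g) H.subtype
    (𝟙 (T.resSub (G.JRep M.Gal W M.F) H))
    ((groupCohomology.map (MonoidHom.id M.Gal) (jResRepHom M.Gal M.F hW) 2).hom y)
  have h3 := LocDatum.map_comp ((cDatum M H W q hqW g).comp H.subtype
    (𝟙 (T.resSub (G.JRep M.Gal W M.F) H))) (MonoidHom.id M.Gal) (jResRepHom M.Gal M.F hW) y
  have h4 := congrFun (congrArg DFunLike.coe (datum_map_eq M H hW q hqW g)) y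
  exact h1.symm.trans (h4.trans (h3.trans h2))

/-- If `y` dies in `H²(Γ, J_W)` then all localisations of `res_H y` at `q ∈ W` vanish. -/
theorem cH2_res_eq_zero (g : GQ) (y : H2 (G.JRep M.Gal W' M.F))
    (hy : h2Top (jResRepHom M.Gal M.F hW) y = 0) :
    cH2 M H W' q (hW hqW) g (res2 (G.JRep M.Gal W' M.F) H y) = 0 := by
  refine (cH2_res_eq_jRes M H hW q hqW g y).trans ?_
  have h1 : res2 (G.JRep M.Gal W M.F) H (h2Top (jResRepHom M.Gal M.F hW) y) = 0 :=
    (congrArg (res2 (G.JRep M.Gal W M.F) H) hy).trans (map_zero _)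
  exact (congrArg (cH2 M H W q hqW g) h1).trans (map_zero _)

end FRE

section Main

variable (I : LocalInvSystem) {S : Finset Nat.Primes} (M : Level S)

/-- The invariants at the pairs above `q ≠ r` of a class concentrated at `r` vanish. -/
theorem invPair_eq_zero_of_ne (r : Nat.Primes) (y : groupCohomology (lvlJ M) 2)
    (hAt : IsAt S M.Gal M.F r y) (x : H481.Pair M (⊤ : Subgroup M.Gal) S) (hx : x.1.1 ≠ r) :
    H481.invPair M ⊤ I x (res2 (lvlJ M) ⊤ y) = 0 := by
  haveI : Fact ((x.1.1 : ℕ).Prime) := ⟨x.1.1.2⟩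
  have hmem : (⟨(x.1.1 : ℕ), x.1.1.2⟩ : Nat.Primes) ∈ S.erase r :=
    Finset.mem_erase.2 ⟨hx, x.1.2⟩
  have h1 := cH2_res_eq_zero M (⊤ : Subgroup M.Gal) (Finset.erase_subset r S) (x.1.1 : ℕ)
    hmem x.2.1 y hAt
  exact (congrArg (I.inv (x.1.1 : ℕ) (locSub (x.1.1 : ℕ) x.2.1 (UH M ⊤))) h1).trans
    (AddMonoidHom.map_zero _)

/-- Two pairs above the same prime coincide (there is one place of `ℚ` above each prime). -/
theorem pair_eq_of_fst_eq (hCount : CountSpec) (x x' : H481.Pair M (⊤ : Subgroup M.Gal) S)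
    (h : x.1 = x'.1) : x = x' := by
  obtain ⟨q, g, hg⟩ := x
  obtain ⟨q', g', hg'⟩ := x'
  have e : q = q' := h
  subst e
  haveI : Fact ((q.1 : ℕ).Prime) := ⟨q.1.2⟩
  obtain ⟨g₀, hg₀⟩ := Finset.card_eq_one.1 (card_reps_top hCount M (q.1 : ℕ))
  have e3 : g = g₀ := Finset.mem_singleton.1 (hg₀ ▸ hg)
  have e4 : g' = g₀ := Finset.mem_singleton.1 (hg₀ ▸ hg')
  subst e3
  subst e4
  rfl

/-- All invariants at the pairs vanish. -/
theorem invPair_eq_zero_all (hCount : CountSpec) (r : Nat.Primes)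
    (y : groupCohomology (lvlJ M) 2) (hAt : IsAt S M.Gal M.F r y)
    (hσ : sigma I M ⊤ (res2 (lvlJ M) ⊤ y) = 0) (x : H481.Pair M (⊤ : Subgroup M.Gal) S) :
    H481.invPair M ⊤ I x (res2 (lvlJ M) ⊤ y) = 0 := by
  by_cases hx : x.1.1 = r
  · have huniq : ∀ x' : H481.Pair M (⊤ : Subgroup M.Gal) S, x' ≠ x →
        H481.invPair M ⊤ I x' (res2 (lvlJ M) ⊤ y) = 0 := by
      intro x' hx'
      apply invPair_eq_zero_of_ne I M r y hAt x'
      intro hx'r
      exact hx' (pair_eq_of_fst_eq M hCount x' x (Subtype.ext (hx'r.trans hx.symm)))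
    have hsum := H481.sigma_eq_sum_pairs M ⊤ I (res2 (lvlJ M) ⊤ y)
    rw [finsum_eq_single _ x huniq] at hsum
    exact hsum.symm.trans hσ
  · exact invPair_eq_zero_of_ne I M r y hAt x hx

end Main

/-- **Assembly of `injAt`**: the field `injAt` of `SemiLocalInv p` for `σ = sigma I`. -/
theorem injAt_of (I : LocalInvSystem) (p : ℕ) (hCount : CountSpec) (hLI : LocInjSpec)
    (hOR : OrbitRepsSpec) (hSh : G.ShapiroJSpec) (hTop : ResTopSpec) :
    ∀ {S : Finset Nat.Primes} (M : Level S) (r : Nat.Primes)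
      (y : groupCohomology (lvlJ M) 2), E1.IsPPrimary p y → IsAt S M.Gal M.F r y →
      sigma I M ⊤ (res2 (lvlJ M) ⊤ y) = 0 → y = 0 := by
  intro S M r y _ hAt hσ
  have hz : res2 (lvlJ M) ⊤ y = 0 :=
    H481.eq_zero_of_forall_locMapJ M ⊤ hOR hSh _
      (fun x => H481.locMapJ_eq_zero_of_invPair M ⊤ I hLI x _
        (invPair_eq_zero_all I M hCount r y hAt hσ x))
  apply (hTop M.Gal (lvlJ M) 2).1
  exact hz.trans (map_zero _).symm

end Fermat.Agent.S55.G.Rec.TOW.FR.H414
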