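/-
S55 / layer G / block REC / adapter TOW / leaf FR, assembly piece `injAt` (helper724).

* `cH2_jRes` (FR-E) : `c_{q,g}` on `J_S` factors through `J_{S∖{r}}` for `q ≠ r`;
* `injAt_of I p : OrbitRepsSpec → LocInjSpec → G.ShapiroJSpec → ResTopSpec → ResCoeffNatSpec →
    InjAtField I p`  (the field `injAt` of `TOW.SemiLocalInv p` for `σ = FR.sigma I`).

Uses the pair/Shapiro infrastructure of helper481 (`FR/AsmLocH481.lean`).
-/
import Fermat.Agent.S55.G.Rec.Tow.FR.AsmLocH481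
import Fermat.Agent.S55.G.Rec.Tow.FR.AssemblyH724

set_option autoImplicit false
set_option linter.unusedSectionVars false
set_option linter.style.haveILetI false

open CategoryTheory groupCohomology

noncomputable section

namespace Fermat.Agent.S55.G.Rec.TOW.FR.H724

open Fermat.Agent.S55 Fermat.Agent.S55.Tow Fermat.Agent.S55.E1.H594 Fermat.Agent.S55.G.Rec

variable {S : Finset Nat.Primes} (M : Level S) (H : Subgroup M.Gal)

/-- **FR-E**: for `W ⊆ W'` and `q ∈ W`, the localisation `c_{q,g}` on `J_{W'}` factors through the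
projection `J_{W'} → J_W`. -/
theorem cH2_jRes {W W' : Finset Nat.Primes} (hW : W ⊆ W') (q : ℕ) [hq : Fact q.Prime]
    (hqW : (⟨q, hq.out⟩ : Nat.Primes) ∈ W) (g : GQ)
    (z : groupCohomology (T.resSub (G.JRep M.Gal W' M.F) H) 2) :
    cH2 M H W' q (hW hqW) g z =
      cH2 M H W q hqW g (h2Sub (jResRepHom M.Gal M.F hW) H z) := by
  have h1 := LocDatum.map_comp (A := T.resSub (G.JRep M.Gal W' M.F) H) (cDatum M H W q hqW g)
    (MonoidHom.id ↥H) ((Rep.resFunctor H.subtype).map (jResRepHom M.Gal M.F hW)) z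
  refine Eq.trans ?_ h1
  refine congrFun (congrArg DFunLike.coe (LocDatum.map_congr ?_ ?_)) z
  · rfl
  · apply AddMonoidHom.ext
    intro a
    apply Additive.toMul.injective
    apply Units.ext
    exact (evAlg_asRes M W q hqW hW g _).symm

/-- For the full group, the representatives of the places above `q` reduce to one element. -/
lemma reps_top_subsingleton (q : ℕ) [Fact q.Prime] {g g' : GQ}
    (hg : g ∈ reps (UH M ⊤) q) (hg' : g' ∈ reps (UH M ⊤) q) : g = g' := by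
  obtain ⟨r, -, huniq⟩ := reps_spec (isOpenQ_UH M ⊤) q g
  have h1 : g = r := huniq g ⟨hg, 1, Subgroup.one_mem _, 1, Subgroup.one_mem _, by
    rw [one_mul, mul_one]⟩
  have h2 : g' = r := huniq g' ⟨hg', g * g'⁻¹, Subgroup.mem_top _, 1, Subgroup.one_mem _, by
    rw [mul_one, inv_mul_cancel_right]⟩
  exact h1.trans h2.symm

/-- The invariant at a pair `(q, g)` with `q ≠ r` vanishes on the restriction of a class
concentrated at `r`. -/
lemma invPair_eq_zero_of_ne (I : LocalInvSystem) (hRCN : ResCoeffNatSpec) (r : Nat.Primes)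
    (y : groupCohomology (lvlJ M) 2) (hat : IsAt S M.Gal M.F r y)
    (x : H481.Pair M H S) (hx : x.1.1 ≠ r) :
    H481.invPair M H I x (res2 (lvlJ M) H y) = 0 := by
  haveI : Fact ((x.1.1 : ℕ).Prime) := ⟨x.1.1.2⟩
  have hmem : (⟨(x.1.1 : ℕ), x.1.1.2⟩ : Nat.Primes) ∈ S.erase r :=
    Finset.mem_erase.2 ⟨hx, x.1.2⟩
  have h1 := cH2_jRes M H (Finset.erase_subset r S) (x.1.1 : ℕ) hmem x.2.1
    (res2 (lvlJ M) H y)
  have h2 : h2Sub (jResRepHom M.Gal M.F (Finset.erase_subset r S)) H (res2 (lvlJ M) H y) = 0 := by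
    have h3 := hRCN M.Gal (G.JRep M.Gal S M.F) (G.JRep M.Gal (S.erase r) M.F)
      (jResRepHom M.Gal M.F (Finset.erase_subset r S)) H y
    refine h3.trans ?_
    have h4 : h2Top (jResRepHom M.Gal M.F (Finset.erase_subset r S)) y = 0 := hat
    rw [h4, map_zero]
  have h5 : cH2 M H S (x.1.1 : ℕ) x.1.2 x.2.1 (res2 (lvlJ M) H y) = 0 := by
    refine h1.trans ?_
    rw [h2, map_zero]
  exact (congrArg (I.inv (x.1.1 : ℕ) (locSub (x.1.1 : ℕ) x.2.1 (UH M H))) h5).trans
    (AddMonoidHom.map_zero _)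

/-- Two pairs over `ℚ` (`H = ⊤`) with the same prime are equal. -/
lemma pair_top_ext (x x' : H481.Pair M ⊤ S) (h : x'.1.1 = x.1.1) : x' = x := by
  obtain ⟨⟨q, hq⟩, ⟨g, hg⟩⟩ := x
  obtain ⟨⟨q', hq'⟩, ⟨g', hg'⟩⟩ := x'
  have hqq : q' = q := h
  subst hqq
  haveI : Fact ((q' : ℕ).Prime) := ⟨q'.2⟩
  have hgg : g' = g := reps_top_subsingleton M (q' : ℕ) hg' hg
  subst hgg
  rfl

/-- **Assembly of `injAt`**: the field `injAt` of `SemiLocalInv p` for `σ = sigma I`. -/
theorem injAt_of (I : LocalInvSystem) (p : ℕ) (hOR : OrbitRepsSpec) (hLI : LocInjSpec)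
    (hSh : G.ShapiroJSpec) (hTop : ResTopSpec) (hRCN : ResCoeffNatSpec) : InjAtField I p := by
  intro S M r y _ hat hσ
  -- all invariants of `z = res_⊤ y` vanish
  have hinv : ∀ x : H481.Pair M ⊤ S, H481.invPair M ⊤ I x (res2 (lvlJ M) ⊤ y) = 0 := by
    intro x
    by_cases hx : x.1.1 = r
    · have hsum := H481.sigma_eq_sum_pairs M ⊤ I (res2 (lvlJ M) ⊤ y)
      rw [finsum_eq_single _ x (fun x' hx' => by
        apply invPair_eq_zero_of_ne M ⊤ I hRCN r y hat x'
        intro h'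
        exact hx' (pair_top_ext M x x' (h'.trans hx.symm)))] at hsum
      exact hsum.symm.trans hσ
    · exact invPair_eq_zero_of_ne M ⊤ I hRCN r y hat x hx
  -- Shapiro: `res_⊤ y = 0`
  have hz : res2 (lvlJ M) ⊤ y = 0 :=
    H481.eq_zero_of_forall_locMapJ M ⊤ hOR hSh _
      (fun x => H481.locMapJ_eq_zero_of_invPair M ⊤ I hLI x _ (hinv x))
  -- restriction to `⊤` is injective
  apply (hTop M.Gal (lvlJ M) 2).1
  show res2 (lvlJ M) ⊤ y = res2 (lvlJ M) ⊤ 0
  rw [hz, map_zero]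

end Fermat.Agent.S55.G.Rec.TOW.FR.H724
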