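import Fermat.Agent.S55.G.Rec.Tow.FR.LocInjH894
import Fermat.Agent.S55.G.Rec.Tow.H894.InjCore

/-!
# S55 / REC2-TOW / FR, assembly piece `injAt`  (helper894, subtask 560)

`injAt_of I hSh : G.ShapiroJSpec → [field injAt of TOW.SemiLocalInv p for σ := FR.sigma I]`:
a class `y ∈ H²(Gal(M/ℚ), J_S(M))` concentrated at `r` with `σ_⊤ (res_⊤ y) = 0` is `0`.

* `cH2_res_top_eq_zero_iff` : `c_{q,g} (res_⊤ y) = 0 ↔ locMapJ S M.Gal (placeOf q g) 2 y = 0`
  (FR-A for `H = ⊤`, stated for the group `M.Gal` itself; `H894.LocLink` with `Γ = M.Gal`);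
* components `q ≠ r` of `σ` vanish (`H894.locMapJ_eq_zero_of_isAt`);
* `reps (UH M ⊤) r` is a singleton `{g₀}`; `I.inv_injective`;
* all places above `r` are conjugate to `placeOf r g₀` (`H894.exists_smul_evPlace_eq`), Shapiro
  (`H894.eq_zero_of_isAt_of_locMapJ`).
The hypothesis `E1.IsPPrimary p y` of the field is not needed.
-/

set_option autoImplicit false
set_option linter.unusedSectionVars false
set_option linter.style.haveILetI false

open CategoryTheory groupCohomology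
open scoped TensorProduct

noncomputable section

namespace Fermat.Agent.S55.G.Rec.TOW.FR.H894

open Fermat.Agent.S55 Fermat.Agent.S55.Tow Fermat.Agent.S55.E1.H594 Fermat.Agent.S55.G.Rec
open Fermat.Agent.S55.G

local notation "Qb" => AlgebraicClosure ℚ
local notation "GQ" => (AlgebraicClosure ℚ ≃ₐ[ℚ] AlgebraicClosure ℚ)

/-- A class which is locally trivial at all places above `S` is trivial (Shapiro). -/
lemma eq_zero_of_forall_locMapJ {S : Finset Nat.Primes} {L : Type} [Field L] [NumberField L]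
    (Γ : Type) [Group Γ] [Finite Γ] [MulSemiringAction Γ L] (hSh : G.ShapiroJSpec)
    (y : groupCohomology (JRep Γ S L) 2)
    (h : ∀ 𝔪 : SPlace S L, (locMapJ S Γ 𝔪 2).hom y = 0) : y = 0 := by
  haveI : Finite (SPlace S L) := PL0H713.finite_sPlace S L
  letI : MulAction Γ (SPlace S L) := sPlaceAction S Γ L
  by_cases hne : Nonempty (SPlace S L)
  · obtain ⟨𝔪₀⟩ := hne
    obtain ⟨R, -, hR⟩ := TOW.H894.exists_orbit_reps (Γ := Γ) 𝔪₀
    apply (hSh S Γ L R hR 2).1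
    funext ρ
    change (locMapJ S Γ ρ.1 2).hom y = (locMapJ S Γ ρ.1 2).hom 0
    rw [map_zero]
    exact h ρ.1
  · rw [not_nonempty_iff] at hne
    apply (hSh S Γ L ∅ (fun 𝔪 => hne.elim 𝔪) 2).1
    funext ρ
    exact absurd ρ.2 (Finset.notMem_empty _)

section

variable {S : Finset Nat.Primes} (M : Level S)
  (q : ℕ) [hq : Fact q.Prime] (hqS : (⟨q, hq.out⟩ : Nat.Primes) ∈ S) (g : GQ)

lemma mem_locSub_top (τ : PadicAlgCl q ≃ₐ[ℚ_[q]] PadicAlgCl q) :
    τ ∈ locSub q g (UH M ⊤) := by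
  rw [mem_locSub, mem_UH]
  exact Subgroup.mem_top _

lemma isOpenL_locSub_top : IsOpenL q (locSub q g (UH M ⊤)) :=
  ⟨⊥, inferInstance, fun τ _ => mem_locSub_top M q g τ⟩

lemma primeOf_placeOf_val :
    (PL0H713.primeOf S M.F (placeOf M S q hqS g)).1 = ⟨q, hq.out⟩ := by
  rw [placeOf_eq_evPlace, TOW.H894.primeOf_evPlace]

variable {M q g} in
/-- The link between the full local group `V = locSub q g (UH M ⊤)` and `Gal(M/ℚ)`. -/
def topLink {𝔪 : SPlace S M.F} (P : HP.PlaceEmb S M.F 𝔪 q) (hPg : P.g = g) :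
    TOW.H894.LocLink P M.Gal (locSub q g (UH M ⊤)) where
  ρ := (⊤ : Subgroup M.Gal).subtype.comp ((piH M ⊤).comp (locHom q g (UH M ⊤)))
  smul_coe τ x := by
    rw [hPg]
    exact level_mk_smul M (g * localGaloisToGlobal q τ * g⁻¹) x
  full τ d hd := by
    rw [hPg] at hd
    have h1 : (QuotientGroup.mk (g * localGaloisToGlobal q τ * g⁻¹) : M.Gal) = d := by
      apply (level_faithfulSMul M).eq_of_smul_eq_smul
      intro x
      apply Subtype.ext
      rw [level_mk_smul]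
      exact hd x
    exact ⟨mem_locSub_top M q g τ, h1⟩

/-- **FR-A for `H = ⊤`, in terms of the group `Gal(M/ℚ)`.** -/
theorem cH2_res_top_eq_zero_iff (y : groupCohomology (lvlJ M) 2) :
    cH2 M ⊤ S q hqS g (res2 (lvlJ M) ⊤ y) = 0 ↔
      (locMapJ S M.Gal (placeOf M S q hqS g) 2).hom y = 0 := by
  obtain ⟨P, hPg, hPφ⟩ := exists_placeEmb M S q hqS g
  obtain ⟨yc, rfl⟩ := Bridge.H2π_surjective _ y
  have hres : res2 (lvlJ M) ⊤ ((H2π (lvlJ M)).hom yc) =
      (H2π (T.resSub (lvlJ M) ⊤)).hom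
        ((mapCocycles₂ (⊤ : Subgroup M.Gal).subtype (𝟙 (T.resSub (lvlJ M) ⊤))).hom yc) :=
    congr($(H2π_comp_map (⊤ : Subgroup M.Gal).subtype (𝟙 (T.resSub (lvlJ M) ⊤))) yc)
  have hpush : (cDatum M ⊤ S q hqS g).push₂
      ((mapCocycles₂ (⊤ : Subgroup M.Gal).subtype (𝟙 (T.resSub (lvlJ M) ⊤))).hom yc) =
      (topLink P hPg).evCochain (yc : M.Gal × M.Gal → Additive (G.AS S M.F)ˣ) := by
    funext p
    apply Additive.toMul.injective
    apply Units.ext
    exact (hPφ _).symm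
  rw [hres, cH2, LocDatum.map_H2π, continuousH2π_eq_zero_iff, LocDatum.coe_cocycles, hpush]
  constructor
  · intro h
    exact (topLink P hPg).locMapJ_eq_zero yc h
  · intro h
    exact (topLink P hPg).evCochain_mem_levelCoboundaries₂ yc h

/-- Over `ℚ` there is only one place of `ℚ` above `q`: `reps (UH M ⊤) q` is a singleton. -/
lemma exists_reps_top_eq :
    ∃ g₀ : GQ, g₀ ∈ reps (UH M ⊤) q ∧ ∀ g' ∈ reps (UH M ⊤) q, g' = g₀ := by
  have hspec := reps_spec (isOpenQ_UH M ⊤) q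
  obtain ⟨g₀, ⟨hg₀, -⟩, -⟩ := hspec 1
  refine ⟨g₀, hg₀, fun g' hg' => ?_⟩
  obtain ⟨r₀, -, huniq⟩ := hspec g'
  have e1 : g' = r₀ := huniq g' ⟨hg', 1, (UH M ⊤).one_mem, 1,
    (localGaloisToGlobal q).range.one_mem, by rw [one_mul, mul_one]⟩
  have e2 : g₀ = r₀ := huniq g₀ ⟨hg₀, g' * g₀⁻¹, Subgroup.mem_top _, 1,
    (localGaloisToGlobal q).range.one_mem, by group⟩
  exact e1.trans e2.symm

end

/-- **`injAt`** for `σ := FR.sigma I`: a class of `H²(Gal(M/ℚ), J_S(M))` concentrated at `r`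
with semilocal invariant `0` is `0`. -/
theorem injAt_of (I : LocalInvSystem) (hSh : G.ShapiroJSpec) {S : Finset Nat.Primes}
    (M : Level S) (r : Nat.Primes) (y : groupCohomology (lvlJ M) 2)
    (hat : IsAt S M.Gal M.F r y) (h0 : sigma I M ⊤ (res2 (lvlJ M) ⊤ y) = 0) : y = 0 := by
  by_cases hr : r ∈ S
  · haveI hrP : Fact ((r : ℕ).Prime) := ⟨r.2⟩
    -- the components `q ≠ r` vanish
    have hoff : ∀ q : S, q ≠ ⟨r, hr⟩ → sigmaAt I M ⊤ q (res2 (lvlJ M) ⊤ y) = 0 := by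
      intro q hqr
      haveI : Fact ((q.1 : ℕ).Prime) := ⟨q.1.2⟩
      rw [sigmaAt_apply]
      refine Finset.sum_eq_zero fun g _ => ?_
      have h1 : cH2 M ⊤ S (q.1 : ℕ) q.2 g (res2 (lvlJ M) ⊤ y) = 0 := by
        rw [cH2_res_top_eq_zero_iff]
        apply TOW.H894.locMapJ_eq_zero_of_isAt M.Gal r y hat
        rw [primeOf_placeOf_val]
        exact fun h => hqr (Subtype.ext h)
      rw [h1, map_zero]
    rw [sigma_apply, Finset.sum_eq_single (⟨r, hr⟩ : S) (fun q _ hq => hoff q hq)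
      (fun h => absurd (Finset.mem_univ _) h), sigmaAt_apply] at h0
    obtain ⟨g₀, hg₀, hsingle⟩ := exists_reps_top_eq M (r : ℕ)
    rw [Finset.sum_eq_single_of_mem g₀ hg₀
      (fun g hg hne => absurd (hsingle g hg) hne)] at h0
    have h1 : cH2 M ⊤ S (r : ℕ) hr g₀ (res2 (lvlJ M) ⊤ y) = 0 :=
      I.inv_injective (r : ℕ) _ (isOpenL_locSub_top M (r : ℕ) g₀) (h0.trans (map_zero _).symm)
    rw [cH2_res_top_eq_zero_iff] at h1
    refine TOW.H894.eq_zero_of_isAt_of_locMapJ M.Gal hSh r y hat (placeOf M S (r : ℕ) hr g₀)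
      (fun 𝔪 h𝔪 => ?_) h1
    rw [placeOf_eq_evPlace]
    exact TOW.H894.exists_smul_evPlace_eq M.F M.Gal
      (fun σ => ⟨(QuotientGroup.mk σ : M.Gal), fun x => level_mk_smul M σ x⟩) (r : ℕ) hr g₀ 𝔪 h𝔪
  · refine eq_zero_of_forall_locMapJ M.Gal hSh y (fun 𝔪 => ?_)
    exact TOW.H894.locMapJ_eq_zero_of_isAt M.Gal r y hat 𝔪
      (fun h => hr (h ▸ (PL0H713.primeOf S M.F 𝔪).2))

end Fermat.Agent.S55.G.Rec.TOW.FR.H894
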