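/-
S55 / layer G / block REC / adapter TOW / leaf FR : **FR-OUT closed** (helper64).

  `theorem outside (I : LocalInvSystem) : OutsideSpec I`       (exact type of `FR/Spec.lean`)

and the DEF-independent reciprocity in the model of `FR/Defs.lean`:

  `sum_invAt_inflL_eq_zero` :  `∑_{q ∈ S} ∑_{r ∈ R q} inv_{q,r} (inflL x) = 0`
  for `x ∈ H²(H, Mˣ)` `p`-primary with `ord_* x = 0`, any representatives `R`.

Proof: `FR.inflL M H = H64.inflH2 M H` (same pull–push on cochains) and
`H64.invAt_inflH2_eq_zero` (`Tow/H64/OutS.lean`: global twist by prescribed orders +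
helper181's `locBr_eq_zero_of_good`).

No `sorry`.
-/
import Fermat.Agent.S55.G.Rec.Tow.FR.Spec
import Fermat.Agent.S55.G.Rec.Tow.H64.Recip

set_option autoImplicit false

open CategoryTheory groupCohomology

noncomputable section

namespace Fermat.Agent.S55.G.Rec.TOW.FR.H64

open Fermat.Agent.S55 Fermat.Agent.S55.Tow Fermat.Agent.S55.E1.H594 Fermat.Agent.S55.G.Rec

variable {S : Finset Nat.Primes} (M : Level S) (H : Subgroup M.Gal)

/-- The two models of the preimage of `H` in `G_ℚ` coincide. -/
lemma UH_eq_preU : UH M H = TOW.H64.preU M H := rfl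

/-- The two models of the inflation `H²(H, Mˣ) → Br(M^H)` coincide. -/
theorem inflL_eq_inflH2 (x : H2 (T.resSub (lvlL M) H)) :
    inflL M H x = TOW.H64.inflH2 M H x := by
  obtain ⟨f, rfl⟩ := TOW.H64.H2π_surjective _ x
  rw [TOW.H64.inflH2_H2π]
  show (inflDatum M H).map ((H2π (T.resSub (lvlL M) H)).hom f) = _
  rw [GlobDatum.map_H2π]
  rfl

/-- **FR-OUT**: vanishing of the local invariants outside `S`. -/
theorem outside (I : LocalInvSystem) : OutsideSpec I := by
  intro S M H x hx q hq g
  rw [inflL_eq_inflH2]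
  exact TOW.H64.invAt_inflH2_eq_zero M H I x hx q hq g

/-- **FR-REC, DEF-independent form**: reciprocity for the inflation of a `p`-primary class with
trivial divisor class, for any system of representatives of the places. -/
theorem sum_invAt_inflL_eq_zero (I : LocalInvSystem) (p : ℕ) (hrec : ReciprocitySpec I p)
    (x : H2 (T.resSub (lvlL M) H)) (hx : E1.IsPPrimary p x)
    (hord : h2Sub (G.ordRepHom S M.Gal M.F) H x = 0)
    (R : Nat.Primes → Finset GQ)
    (hR : ∀ q : Nat.Primes,
      haveI : Fact (q : ℕ).Prime := ⟨q.2⟩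
      IsDoubleCosetReps (UH M H) (localGaloisToGlobal (q : ℕ)).range (R q)) :
    ∑ q ∈ S, ∑ r ∈ R q, I.invAt q r (UH M H) (inflL M H x) = 0 := by
  rw [inflL_eq_inflH2]
  exact TOW.H64.sum_invAt_inflH2_eq_zero M H I p hrec x hx hord R hR

end Fermat.Agent.S55.G.Rec.TOW.FR.H64
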